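import Fermat.Agent.LT.T6.H340.BTNbr
import Fermat.Agent.LT.H338.TreeDist

/-!
# Row LT, tower T6, helper340: the tree of `GL₂(k)` in the vocabulary of `T6/Spec.lean` (OFF-MAIN)

`k` a field with `Valued k ℤᵐ⁰` which is a local field in the sense of `T6.IsLocalField k q`
(only the uniformiser and the system of representatives of the residue field are used; no
completeness, no characteristic).

* `BTVert340 k` : the vertices, `GL₂(k) / k^× GL₂(𝒪)` (a `Quotient`);
* `btDist340` : the distance, `btDist340 ⟦g⟧ ⟦h⟧ = a - b` for the Cartan invariant `(a, b)` of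
  `g⁻¹ h` (`btDist340_mk`);
* `isTreeDist_btDist340 : IsLocalField k q → IsTreeDist338 (btDist340 (k := k))`
  (the four properties of a tree distance of helper338, `LT/H338/TreeDist.lean`);
* `ncard_nb_btDist340 : IsLocalField k q → {w | btDist340 v w = 1}.ncard = q + 1`;
* `btMul340 g`, `btAut340 s hs`, `btTw340 s hs δ` : left translation, the action of a ring
  automorphism preserving the valuation, and the twisted action `x ↦ δ s(x)`; they preserve the
  distance, and `btDist340_tw_mk : btDist340 ⟦x⟧ (btTw340 s hs δ ⟦x⟧) = cdist340 (x⁻¹ δ s(x))`.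
-/

set_option autoImplicit false
set_option linter.unusedSectionVars false

open Matrix

noncomputable section

namespace Fermat.Agent.LT.T6.H340

open Fermat.Agent.LT.T6 Fermat.Agent.LT.H129 Fermat.Agent.LT.H338

variable {k : Type} [Field k] [Valued k Γ₀]

/-! ### The step property on group elements -/

section Step

variable {ϖ : k} (hϖ : Valued.v ϖ = WithZero.exp (-1 : ℤ)) (T : Finset k)
  (hT : ∀ z : k, Valued.v z ≤ 1 → ∃ x ∈ T, Valued.v (z - x) < 1)

include hϖ hT

/-- Integrality of the representatives follows from the covering property only for those that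
occur; we use the following form. -/
theorem exists_nb_int340 {y : GL (Fin 2) k} (hy : cdist340 y = 1) :
    (∃ c : k, Valued.v c ≤ 1 ∧ cdist340 ((nbF340 ϖ (unif_ne_zero340 hϖ) c)⁻¹ * y) = 0)
      ∨ cdist340 ((nbI340 ϖ (unif_ne_zero340 hϖ))⁻¹ * y) = 0 := by
  -- replace `T` by its integral part
  classical
  have hT' : ∀ z : k, Valued.v z ≤ 1 →
      ∃ x ∈ T.filter (fun x => Valued.v x ≤ 1), Valued.v (z - x) < 1 := by
    intro z hz
    obtain ⟨x, hx, hzx⟩ := hT z hz
    refine ⟨x, Finset.mem_filter.mpr ⟨hx, ?_⟩, hzx⟩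
    have : x = z - (z - x) := by ring
    rw [this]
    exact le_trans (Valuation.map_sub _ _ _) (max_le hz hzx.le)
  rcases exists_nb340 hϖ _ hT' hy with ⟨c, hc, h⟩ | h
  · exact Or.inl ⟨c, (Finset.mem_filter.mp hc).2, h⟩
  · exact Or.inr h

/-- The distance from the origin of `D * y`, `D = diag(a, b)` and `y` of distance `1`. -/
theorem cdist340_diag_mul {a b : k} (ha : a ≠ 0) (hb : b ≠ 0) {n : ℕ}
    (hv : Valued.v a = Valued.v b * WithZero.exp (n : ℤ)) {y : GL (Fin 2) k}
    (hy : cdist340 y = 1) :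
    cdist340 (diag129 a b ha hb * y) = n + 1 ∨
      (cdist340 (diag129 a b ha hb * y) + 1 = n ∧
        ∃ c : k, Valued.v c < 1 ∧ cdist340 ((nbF340 ϖ (unif_ne_zero340 hϖ) c)⁻¹ * y) = 0) := by
  rcases exists_nb_int340 hϖ T hT hy with ⟨c, hc1, hc⟩ | h
  · have e : diag129 a b ha hb * y
        = diag129 a b ha hb * nbF340 ϖ (unif_ne_zero340 hϖ) c
          * ((nbF340 ϖ (unif_ne_zero340 hϖ) c)⁻¹ * y) := by group
    rw [e, cdist340_mul_of_zero_right hc]
    rcases eq_or_lt_of_le hc1 with hcu | hcs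
    · exact Or.inl (cdist340_diag_mul_nbF_unit hϖ ha hb hv hcu)
    · cases n with
      | zero =>
        left
        simp only [CharP.cast_eq_zero, WithZero.exp_zero, mul_one] at hv
        rw [cdist340_diag_mul_nbF_zero hϖ ha hb hv hc1]
      | succ m =>
        right
        exact ⟨by rw [cdist340_diag_mul_nbF_small hϖ ha hb hv hcs], c, hcs, hc⟩
  · have e : diag129 a b ha hb * y
        = diag129 a b ha hb * nbI340 ϖ (unif_ne_zero340 hϖ)
          * ((nbI340 ϖ (unif_ne_zero340 hϖ))⁻¹ * y) := by group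
    rw [e, cdist340_mul_of_zero_right h]
    exact Or.inl (cdist340_diag_mul_nbI hϖ ha hb hv)

/-- **Step.**  Multiplication by an element of distance `1` changes the distance from the origin
by exactly `1`. -/
theorem cdist340_mul_step (x : GL (Fin 2) k) {y : GL (Fin 2) k} (hy : cdist340 y = 1) :
    cdist340 (x * y) = cdist340 x + 1 ∨ cdist340 (x * y) + 1 = cdist340 x := by
  obtain ⟨u, u', a, b, ha, hb, hu, hu', hg, hv⟩ := exists_decomp340 x
  have hy' : cdist340 (u' * y) = 1 := by rw [cdist340_mul_left _ hu', hy]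
  have e : x * y = u * (diag129 a b ha hb * (u' * y)) := by rw [hg]; group
  rw [e, cdist340_mul_left _ hu]
  rcases cdist340_diag_mul hϖ T hT ha hb hv hy' with h | ⟨h, -⟩
  · exact Or.inl h
  · exact Or.inr h

end Step

omit [Valued k Γ₀] in
theorem upperU129_eq340 (x : k) : upperU129 x = mkGL129 1 x 0 1 (by simp) := rfl

theorem cdist340_nbF_inv_mul_nbF_zero {ϖ : k} (hϖ : Valued.v ϖ = WithZero.exp (-1 : ℤ))
    {c c' : k} (hcc : Valued.v (c' - c) < 1) :
    cdist340 ((nbF340 ϖ (unif_ne_zero340 hϖ) c)⁻¹ * nbF340 ϖ (unif_ne_zero340 hϖ) c') = 0 := by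
  rw [nbF340_eq_mul_upper hϖ c c', inv_mul_cancel_left]
  apply cdist340_of_inU
  rw [inU_zero_iff129]
  apply isMaxCpt129_upperU
  rw [mem_vO129, map_div₀, hϖ, div_eq_mul_inv, ← WithZero.exp_neg]
  have h1 := (lt_one_iff340 _).mp hcc
  calc Valued.v (c' - c) * WithZero.exp (-(-1 : ℤ))
      ≤ WithZero.exp (-1 : ℤ) * WithZero.exp (-(-1 : ℤ)) := mul_le_mul' h1 le_rfl
    _ = 1 := by rw [← WithZero.exp_add]; simp

/-! ### The vertices and the distance -/

variable (k)

/-- `g` and `h` define the same vertex: `g⁻¹ h ∈ k^× GL₂(𝒪)`. -/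
def btSetoid340 : Setoid (GL (Fin 2) k) where
  r g h := cdist340 (g⁻¹ * h) = 0
  iseqv :=
    { refl := fun g => by rw [inv_mul_cancel]; exact cdist340_one
      symm := fun {g h} hgh => by
        have e : h⁻¹ * g = (g⁻¹ * h)⁻¹ := by group
        rw [e, cdist340_inv]; exact hgh
      trans := fun {g h j} hgh hhj => by
        have e : g⁻¹ * j = (g⁻¹ * h) * (h⁻¹ * j) := by group
        rw [e, cdist340_mul_of_zero_left hgh]; exact hhj }

/-- The vertices of the tree of `GL₂(k)`: `GL₂(k) / k^× GL₂(𝒪)`. -/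
def BTVert340 : Type := Quotient (btSetoid340 k)

variable {k}

/-- The vertex of `g`. -/
def btMk340 (g : GL (Fin 2) k) : BTVert340 k := Quotient.mk (btSetoid340 k) g

theorem btMk340_eq_iff (g h : GL (Fin 2) k) :
    btMk340 g = btMk340 h ↔ cdist340 (g⁻¹ * h) = 0 :=
  Quotient.eq (r := btSetoid340 k)

theorem btMk340_surjective : Function.Surjective (btMk340 (k := k)) :=
  Quotient.mk_surjective

theorem cdist340_congr {g g' h h' : GL (Fin 2) k} (hg : cdist340 (g⁻¹ * g') = 0)
    (hh : cdist340 (h⁻¹ * h') = 0) : cdist340 (g⁻¹ * h) = cdist340 (g'⁻¹ * h') := by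
  have hg' : cdist340 (g'⁻¹ * g) = 0 := by
    have e : g'⁻¹ * g = (g⁻¹ * g')⁻¹ := by group
    rw [e, cdist340_inv]; exact hg
  have e : g'⁻¹ * h' = (g'⁻¹ * g) * ((g⁻¹ * h) * (h⁻¹ * h')) := by group
  rw [e, cdist340_mul_of_zero_left hg', cdist340_mul_of_zero_right hh]

/-- The distance on the vertices. -/
def btDist340 : BTVert340 k → BTVert340 k → ℕ :=
  Quotient.lift₂ (s₁ := btSetoid340 k) (s₂ := btSetoid340 k)
    (fun g h => cdist340 (g⁻¹ * h))
    (fun _ _ _ _ hg hh => cdist340_congr hg hh)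

theorem btDist340_mk (g h : GL (Fin 2) k) :
    btDist340 (btMk340 g) (btMk340 h) = cdist340 (g⁻¹ * h) := rfl

theorem btDist340_eq_zero (x y : BTVert340 k) : btDist340 x y = 0 ↔ x = y := by
  obtain ⟨g, rfl⟩ := btMk340_surjective x
  obtain ⟨h, rfl⟩ := btMk340_surjective y
  rw [btDist340_mk, btMk340_eq_iff]

theorem btDist340_symm (x y : BTVert340 k) : btDist340 x y = btDist340 y x := by
  obtain ⟨g, rfl⟩ := btMk340_surjective x
  obtain ⟨h, rfl⟩ := btMk340_surjective y
  rw [btDist340_mk, btDist340_mk]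
  have e : h⁻¹ * g = (g⁻¹ * h)⁻¹ := by group
  rw [e, cdist340_inv]

/-! ### The tree properties -/

section Tree

variable {ϖ : k} (hϖ : Valued.v ϖ = WithZero.exp (-1 : ℤ)) (T : Finset k)
  (hT : ∀ z : k, Valued.v z ≤ 1 → ∃ x ∈ T, Valued.v (z - x) < 1)

include hϖ hT

theorem btDist340_step (u v w : BTVert340 k) (h : btDist340 v w = 1) :
    btDist340 u v = btDist340 u w + 1 ∨ btDist340 u w = btDist340 u v + 1 := by
  obtain ⟨g₀, rfl⟩ := btMk340_surjective u
  obtain ⟨g, rfl⟩ := btMk340_surjective v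
  obtain ⟨j, rfl⟩ := btMk340_surjective w
  rw [btDist340_mk] at h
  rw [btDist340_mk, btDist340_mk]
  have e : g₀⁻¹ * j = (g₀⁻¹ * g) * (g⁻¹ * j) := by group
  rw [e]
  rcases cdist340_mul_step hϖ T hT (g₀⁻¹ * g) h with h1 | h1
  · exact Or.inr h1
  · exact Or.inl h1.symm

theorem btDist340_toward (u v : BTVert340 k) (huv : u ≠ v) :
    ∃! w, btDist340 v w = 1 ∧ btDist340 u w + 1 = btDist340 u v := by
  obtain ⟨g₀, rfl⟩ := btMk340_surjective u
  obtain ⟨g, rfl⟩ := btMk340_surjective v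
  have h0 := unif_ne_zero340 hϖ
  obtain ⟨u₁, u₂, a, b, ha, hb, hu₁, hu₂, hg, hv⟩ := exists_decomp340 (g₀⁻¹ * g)
  have hn : cdist340 (g₀⁻¹ * g) ≠ 0 := fun h => huv ((btMk340_eq_iff _ _).mpr h)
  obtain ⟨m, hm⟩ := Nat.exists_eq_succ_of_ne_zero hn
  rw [hm] at hv
  obtain ⟨c₀, -, hc₀⟩ := hT 0 (by simp)
  have hc₀' : Valued.v c₀ < 1 := by
    rw [zero_sub, Valuation.map_neg] at hc₀
    exact hc₀
  have hgD : g = g₀ * u₁ * diag129 a b ha hb * u₂ := by
    have : g = g₀ * (g₀⁻¹ * g) := by group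
    rw [this, hg]; group
  refine ⟨btMk340 (g₀ * u₁ * diag129 a b ha hb * nbF340 ϖ h0 c₀), ⟨?_, ?_⟩, ?_⟩
  · rw [btDist340_mk]
    have e : g⁻¹ * (g₀ * u₁ * diag129 a b ha hb * nbF340 ϖ h0 c₀)
        = u₂⁻¹ * nbF340 ϖ h0 c₀ := by
      rw [hgD]; group
    rw [e, cdist340_mul_left _ (inU_zero_inv129 hu₂)]
    exact cdist340_nbF hϖ hc₀'.le
  · rw [btDist340_mk, btDist340_mk, hm]
    have e : g₀⁻¹ * (g₀ * u₁ * diag129 a b ha hb * nbF340 ϖ h0 c₀)
        = u₁ * (diag129 a b ha hb * nbF340 ϖ h0 c₀) := by group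
    rw [e, cdist340_mul_left _ hu₁, cdist340_diag_mul_nbF_small hϖ ha hb hv hc₀']
  · intro w ⟨hw1, hw2⟩
    obtain ⟨j, rfl⟩ := btMk340_surjective w
    rw [btDist340_mk] at hw1
    rw [btDist340_mk, btDist340_mk, hm] at hw2
    rw [btMk340_eq_iff]
    -- `y' = u₂ * (g⁻¹ * j)` has distance `1`, and `g₀⁻¹ j = u₁ D y'`
    have hy' : cdist340 (u₂ * (g⁻¹ * j)) = 1 := by rw [cdist340_mul_left _ hu₂, hw1]
    have e1 : g₀⁻¹ * j = u₁ * (diag129 a b ha hb * (u₂ * (g⁻¹ * j))) := by
      rw [hgD]; group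
    rw [e1, cdist340_mul_left _ hu₁] at hw2
    rcases cdist340_diag_mul hϖ T hT ha hb hv hy' with h | ⟨-, c, hc, hcz⟩
    · omega
    · have e2 : j⁻¹ * (g₀ * u₁ * diag129 a b ha hb * nbF340 ϖ h0 c₀)
          = ((nbF340 ϖ h0 c)⁻¹ * (u₂ * (g⁻¹ * j)))⁻¹
            * ((nbF340 ϖ h0 c)⁻¹ * nbF340 ϖ h0 c₀) := by
        rw [hgD]; group
      have hcz' : cdist340 (((nbF340 ϖ h0 c)⁻¹ * (u₂ * (g⁻¹ * j)))⁻¹) = 0 := by
        rw [cdist340_inv]; exact hcz
      rw [e2, cdist340_mul_of_zero_left hcz']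
      apply cdist340_nbF_inv_mul_nbF_zero hϖ
      have : c₀ - c = (c₀ - 0) - (c - 0) := by ring
      rw [this]
      refine lt_of_le_of_lt (Valuation.map_sub _ _ _) (max_lt ?_ ?_)
      · simpa using hc₀'
      · simpa using hc

/-- The Cartan distance on `GL₂(k) / k^× GL₂(𝒪)` is a tree distance. -/
theorem isTreeDist_btDist340_of : IsTreeDist338 (btDist340 (k := k)) where
  eq_zero := btDist340_eq_zero
  symm := btDist340_symm
  step := btDist340_step hϖ T hT
  toward := btDist340_toward hϖ T hT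

end Tree

/-- **The tree of `GL₂(k)`.**  For a local field `k` (in the sense of `T6/Spec.lean`) the Cartan
distance on `GL₂(k) / k^× GL₂(𝒪)` is a tree distance. -/
theorem isTreeDist_btDist340 {q : ℕ} (hk : IsLocalField k q) :
    IsTreeDist338 (btDist340 (k := k)) := by
  obtain ⟨ϖ, hϖ⟩ := hk.unif
  obtain ⟨T, -, -, -, hT⟩ := hk.residue
  exact isTreeDist_btDist340_of hϖ T hT

/-! ### Every vertex has exactly `q + 1` neighbours -/

section Regular

variable {ϖ : k} (hϖ : Valued.v ϖ = WithZero.exp (-1 : ℤ)) (T : Finset k)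
  (hT1 : ∀ x ∈ T, Valued.v x ≤ 1)
  (hT2 : ∀ x ∈ T, ∀ y ∈ T, x ≠ y → Valued.v (x - y) = 1)
  (hT : ∀ z : k, Valued.v z ≤ 1 → ∃ x ∈ T, Valued.v (z - x) < 1)

include hϖ hT1 hT2 hT

theorem ncard_nb_btDist340_of (v : BTVert340 k) :
    {w | btDist340 v w = 1}.ncard = T.card + 1 := by
  classical
  obtain ⟨g, rfl⟩ := btMk340_surjective v
  have h0 := unif_ne_zero340 hϖ
  set fF : k → BTVert340 k := fun c => btMk340 (g * nbF340 ϖ h0 c) with hfF
  set wI : BTVert340 k := btMk340 (g * nbI340 ϖ h0) with hwI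
  have hinj : Set.InjOn fF (T : Set k) := by
    intro c hc c' hc' h
    by_contra hne
    rw [hfF] at h
    simp only at h
    rw [btMk340_eq_iff] at h
    have e : (g * nbF340 ϖ h0 c)⁻¹ * (g * nbF340 ϖ h0 c')
        = (nbF340 ϖ h0 c)⁻¹ * nbF340 ϖ h0 c' := by group
    rw [e, cdist340_nbF_inv_mul_nbF hϖ (hT2 c' hc' c hc (Ne.symm hne))] at h
    exact absurd h (by norm_num)
  have hnot : wI ∉ T.image fF := by
    intro h
    obtain ⟨c, hc, hcw⟩ := Finset.mem_image.mp h
    rw [hwI, hfF] at hcw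
    simp only at hcw
    rw [btMk340_eq_iff] at hcw
    have e : (g * nbF340 ϖ h0 c)⁻¹ * (g * nbI340 ϖ h0)
        = (nbF340 ϖ h0 c)⁻¹ * nbI340 ϖ h0 := by group
    rw [e, cdist340_nbF_inv_mul_nbI hϖ (hT1 c hc)] at hcw
    exact absurd hcw (by norm_num)
  have hset : {w | btDist340 (btMk340 g) w = 1} = ↑(insert wI (T.image fF)) := by
    ext w
    simp only [Set.mem_ofPred_eq, Finset.coe_insert, Finset.coe_image, Set.mem_insert_iff,
      Set.mem_image, Finset.mem_coe]
    constructor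
    · intro hw
      obtain ⟨j, rfl⟩ := btMk340_surjective w
      rw [btDist340_mk] at hw
      rcases exists_nb340 hϖ T hT hw with ⟨c, hcT, hc⟩ | h
      · right
        refine ⟨c, hcT, ?_⟩
        rw [hfF]
        simp only
        rw [btMk340_eq_iff]
        have e : (g * nbF340 ϖ h0 c)⁻¹ * j = (nbF340 ϖ h0 c)⁻¹ * (g⁻¹ * j) := by group
        rw [e]; exact hc
      · left
        rw [hwI]
        symm
        rw [btMk340_eq_iff]
        have e : (g * nbI340 ϖ h0)⁻¹ * j = (nbI340 ϖ h0)⁻¹ * (g⁻¹ * j) := by group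
        rw [e]; exact h
    · rintro (rfl | ⟨c, hcT, rfl⟩)
      · rw [hwI, btDist340_mk, inv_mul_cancel_left]
        exact cdist340_nbI hϖ
      · rw [hfF]
        simp only
        rw [btDist340_mk, inv_mul_cancel_left]
        exact cdist340_nbF hϖ (hT1 c hcT)
  rw [hset, Set.ncard_coe_finset, Finset.card_insert_of_notMem hnot,
    Finset.card_image_of_injOn hinj]

end Regular

/-- **Regularity.**  Every vertex of the tree of a local field with residue field of `q`
elements has exactly `q + 1` neighbours. -/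
theorem ncard_nb_btDist340 {q : ℕ} (hk : IsLocalField k q) (v : BTVert340 k) :
    {w | btDist340 v w = 1}.ncard = q + 1 := by
  obtain ⟨ϖ, hϖ⟩ := hk.unif
  obtain ⟨T, hcard, hT1, hT2, hT⟩ := hk.residue
  rw [ncard_nb_btDist340_of hϖ T hT1 hT2 hT v, hcard]

/-! ### Isometries: left translations, valuation preserving automorphisms, twisted action -/

/-- Left translation by `g` on the vertices. -/
def btMul340 (g : GL (Fin 2) k) : BTVert340 k → BTVert340 k :=
  Quotient.map (sa := btSetoid340 k) (sb := btSetoid340 k) (fun x => g * x)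
    (fun x y (h : cdist340 (x⁻¹ * y) = 0) => by
      show cdist340 ((g * x)⁻¹ * (g * y)) = 0
      have e : (g * x)⁻¹ * (g * y) = x⁻¹ * y := by group
      rw [e]; exact h)

theorem btMul340_mk (g x : GL (Fin 2) k) : btMul340 g (btMk340 x) = btMk340 (g * x) := rfl

theorem btDist340_mul (g : GL (Fin 2) k) (x y : BTVert340 k) :
    btDist340 (btMul340 g x) (btMul340 g y) = btDist340 x y := by
  obtain ⟨x, rfl⟩ := btMk340_surjective x
  obtain ⟨y, rfl⟩ := btMk340_surjective y
  rw [btMul340_mk, btMul340_mk, btDist340_mk, btDist340_mk]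
  have e : (g * x)⁻¹ * (g * y) = x⁻¹ * y := by group
  rw [e]

theorem btMul340_mul (g h : GL (Fin 2) k) (x : BTVert340 k) :
    btMul340 (g * h) x = btMul340 g (btMul340 h x) := by
  obtain ⟨x, rfl⟩ := btMk340_surjective x
  rw [btMul340_mk, btMul340_mk, btMul340_mk, mul_assoc]

theorem btMul340_one (x : BTVert340 k) : btMul340 1 x = x := by
  obtain ⟨x, rfl⟩ := btMk340_surjective x
  rw [btMul340_mk, one_mul]

/-- The displacement of the vertex of `x` under `γ` is the Cartan distance of `x⁻¹ γ x`. -/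
theorem btDist340_mul_mk (γ x : GL (Fin 2) k) :
    btDist340 (btMk340 x) (btMul340 γ (btMk340 x)) = cdist340 (x⁻¹ * γ * x) := by
  rw [btMul340_mk, btDist340_mk, mul_assoc]

theorem glAut_inv_mul340 (s : k ≃+* k) (x y : GL (Fin 2) k) :
    (glAut s x)⁻¹ * glAut s y = glAut s (x⁻¹ * y) := by
  rw [map_mul, map_inv]

/-- The action of a ring automorphism preserving the valuation on the vertices. -/
def btAut340 (s : k ≃+* k) (hs : ∀ y : k, Valued.v (s y) = Valued.v y) :
    BTVert340 k → BTVert340 k :=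
  Quotient.map (sa := btSetoid340 k) (sb := btSetoid340 k) (fun x => glAut s x)
    (fun x y (h : cdist340 (x⁻¹ * y) = 0) => by
      show cdist340 ((glAut s x)⁻¹ * glAut s y) = 0
      rw [glAut_inv_mul340, cdist340_glAut s hs]; exact h)

theorem btAut340_mk (s : k ≃+* k) (hs : ∀ y : k, Valued.v (s y) = Valued.v y)
    (x : GL (Fin 2) k) : btAut340 s hs (btMk340 x) = btMk340 (glAut s x) := rfl

theorem btDist340_aut (s : k ≃+* k) (hs : ∀ y : k, Valued.v (s y) = Valued.v y)
    (x y : BTVert340 k) : btDist340 (btAut340 s hs x) (btAut340 s hs y) = btDist340 x y := by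
  obtain ⟨x, rfl⟩ := btMk340_surjective x
  obtain ⟨y, rfl⟩ := btMk340_surjective y
  rw [btAut340_mk, btAut340_mk, btDist340_mk, btDist340_mk, glAut_inv_mul340,
    cdist340_glAut s hs]

/-- The twisted action `x ↦ δ s(x)` on the vertices. -/
def btTw340 (s : k ≃+* k) (hs : ∀ y : k, Valued.v (s y) = Valued.v y) (δ : GL (Fin 2) k) :
    BTVert340 k → BTVert340 k :=
  fun x => btMul340 δ (btAut340 s hs x)

theorem btTw340_mk (s : k ≃+* k) (hs : ∀ y : k, Valued.v (s y) = Valued.v y)
    (δ x : GL (Fin 2) k) : btTw340 s hs δ (btMk340 x) = btMk340 (δ * glAut s x) := rfl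

theorem btDist340_tw (s : k ≃+* k) (hs : ∀ y : k, Valued.v (s y) = Valued.v y)
    (δ : GL (Fin 2) k) (x y : BTVert340 k) :
    btDist340 (btTw340 s hs δ x) (btTw340 s hs δ y) = btDist340 x y := by
  unfold btTw340
  rw [btDist340_mul, btDist340_aut]

/-- The displacement of the vertex of `x` under the twisted action of `δ` is the Cartan distance
of `x⁻¹ δ s(x)`. -/
theorem btDist340_tw_mk (s : k ≃+* k) (hs : ∀ y : k, Valued.v (s y) = Valued.v y)
    (δ x : GL (Fin 2) k) :
    btDist340 (btMk340 x) (btTw340 s hs δ (btMk340 x)) = cdist340 (x⁻¹ * δ * glAut s x) := by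
  rw [btTw340_mk, btDist340_mk, mul_assoc]

/-! ### The Cartan invariant from the distance and the determinant -/

theorem cartan_fst_sub_snd340 (g : GL (Fin 2) k) :
    (cartan g).1 - (cartan g).2 = (cdist340 g : ℤ) := by
  have he := entryMax_ne_zero340 g
  have hd := vdet_ne_zero340 g
  have hlog : WithZero.log (Valued.v (g : Matrix (Fin 2) (Fin 2) k).det)
      ≤ 2 * WithZero.log (entryMax g) := by
    have := (WithZero.log_le_log hd (pow_ne_zero 2 he)).mpr (vdet_le_sq340 g)
    rw [WithZero.log_pow] at this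
    simpa using this
  have hval : (cartan g).1 - (cartan g).2
      = 2 * WithZero.log (entryMax g)
        - WithZero.log (Valued.v (g : Matrix (Fin 2) (Fin 2) k).det) := by
    unfold cartan
    ring
  unfold cdist340
  rw [hval]
  omega

theorem cartan_fst_add_snd340 (g : GL (Fin 2) k) :
    (cartan g).1 + (cartan g).2
      = - WithZero.log (Valued.v (g : Matrix (Fin 2) (Fin 2) k).det) := by
  unfold cartan
  ring

/-- The Cartan invariant is determined by the Cartan distance and the valuation of the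
determinant. -/
theorem cartan_eq_of340 {g h : GL (Fin 2) k} (hd : cdist340 g = cdist340 h)
    (hdet : Valued.v (g : Matrix (Fin 2) (Fin 2) k).det
      = Valued.v (h : Matrix (Fin 2) (Fin 2) k).det) : cartan g = cartan h := by
  have h1 := cartan_fst_sub_snd340 g
  have h2 := cartan_fst_sub_snd340 h
  have h3 := cartan_fst_add_snd340 g
  have h4 := cartan_fst_add_snd340 h
  rw [hd] at h1
  rw [hdet] at h3
  ext
  · omega
  · omega

end Fermat.Agent.LT.T6.H340

end
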