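import Fermat.Agent.LT.T6.H340.BTTree

/-!
# Row LT, tower T6, helper340: orbit sum = vertex sum on the tree (OFF-MAIN)

Step (c) of the elliptic cases of the fundamental lemma (registry T6.13.2, T6.13.3, T6.14).

`k` a field with `Valued k ℤᵐ⁰`, `s : k ≃+* k` preserving the valuation, `δ ∈ GL₂(k)`
(for the untwisted orbital integrals: `s = RingEquiv.refl k`).

* `twInv340 s hs δ : BTVert340 k → ℤ × ℤ`, `twInv340 ⟦x⟧ = cartan (x⁻¹ δ s(x))`;
* `twInv340_eq_iff` : `twInv340 p = lam ↔ btDist340 p (δ s(p)) = lam.1 - lam.2` and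
  `lam.1 + lam.2 = - log v (det δ)`;
* `twOrbSum_eq_vertexSum340` : if every `z ≠ 0` has the valuation of an `s`-fixed element
  (`k/k^s` unramified) and every element of the twisted centraliser of `δ` is an `s`-fixed scalar
  times an element of its compact part (`T = ϖ^ℤ × T^c`: elliptic, `k[γ]` unramified), then the
  twisted orbit sum `c` of `ϕ ∘ cartan` at `δ` is the sum of `ϕ (twInv340 p)` over the vertices.
* `twOrbSum_eq_countSum340` : the same as `∑ ϕ(lam) · #{p : twInv340 p = lam}`.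
-/

set_option autoImplicit false
set_option linter.unusedSectionVars false

open Matrix

open scoped Classical

noncomputable section

namespace Fermat.Agent.LT.T6.H340

open Fermat.Agent.LT.T6 Fermat.Agent.LT.H129

variable {k : Type} [Field k] [Valued k Γ₀]

/-! ### Twisted conjugation -/

/-- The twisted conjugate `x⁻¹ δ s(x)`. -/
def twc340 (s : k ≃+* k) (δ x : GL (Fin 2) k) : GL (Fin 2) k := x⁻¹ * δ * glAut s x

theorem twc340_mul (s : k ≃+* k) (δ x y : GL (Fin 2) k) :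
    twc340 s δ (x * y) = twc340 s (twc340 s δ x) y := by
  unfold twc340
  rw [map_mul]
  group

theorem twc340_one (s : k ≃+* k) (δ : GL (Fin 2) k) : twc340 s δ 1 = δ := by
  simp [twc340]

theorem twc340_mul_inv_cancel (s : k ≃+* k) (δ x : GL (Fin 2) k) :
    twc340 s (twc340 s δ x) x⁻¹ = δ := by
  rw [← twc340_mul, mul_inv_cancel, twc340_one]

theorem inTwCent_iff340 (s : k ≃+* k) (δ t : GL (Fin 2) k) :
    InTwCent s δ t ↔ twc340 s δ t = δ := Iff.rfl

theorem scal340_mul_scal (a b : k) (ha : a ≠ 0) (hb : b ≠ 0) :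
    scal340 a ha * scal340 b hb = scal340 (a * b) (mul_ne_zero ha hb) := by
  unfold scal340
  rw [diag129_mul]

theorem scal340_inv (a : k) (ha : a ≠ 0) :
    (scal340 a ha)⁻¹ = scal340 a⁻¹ (inv_ne_zero ha) := by
  unfold scal340
  rw [diag129_inv340]

theorem scal340_congr {a b : k} (ha : a ≠ 0) (hb : b ≠ 0) (h : a = b) :
    scal340 a ha = scal340 b hb := by
  subst h; rfl

theorem inU_zero_scal340 {z : k} (hz : z ≠ 0) (hv : Valued.v z = 1) : InU 0 (scal340 z hz) :=
  (inU_zero_iff129 _).mpr (isMaxCpt129_diag_unit hz hz hv hv)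

theorem glAut_scal340 (s : k ≃+* k) (z : k) (hz : z ≠ 0) :
    glAut s (scal340 z hz)
      = scal340 (s z) (by simpa using hz) := by
  apply ext_mat129
  ext i j
  rw [coe_glAut340, coe_scal340, coe_scal340]
  fin_cases i <;> fin_cases j <;> simp

theorem twc340_scal (s : k ≃+* k) (y : GL (Fin 2) k) (z : k) (hz : z ≠ 0) :
    twc340 s y (scal340 z hz)
      = y * scal340 (s z / z) (div_ne_zero (by simpa using hz) hz) := by
  unfold twc340
  rw [glAut_scal340, scal340_inv, scal340_comm _ _ y, mul_assoc, scal340_mul_scal]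
  congr 1
  exact scal340_congr _ _ (by rw [div_eq_mul_inv, mul_comm])

theorem twc340_scal_fixed (s : k ≃+* k) (y : GL (Fin 2) k) {z : k} (hz : z ≠ 0)
    (hsz : s z = z) : twc340 s y (scal340 z hz) = y := by
  rw [twc340_scal]
  have h1 : scal340 (s z / z) (div_ne_zero (by simpa using hz) hz) = 1 := by
    have e : s z / z = 1 := by rw [hsz, div_self hz]
    rw [scal340_congr _ one_ne_zero e]
    apply ext_mat129
    simp [scal340, diag129, Matrix.one_fin_two]
  rw [h1, mul_one]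

section

variable (s : k ≃+* k) (hs : ∀ y : k, Valued.v (s y) = Valued.v y)

include hs

theorem inU_zero_glAut340 {u : GL (Fin 2) k} (hu : InU 0 u) : InU 0 (glAut s u) := by
  rw [inU_zero_iff129] at hu ⊢
  refine ⟨fun i j => ?_, fun i j => ?_⟩
  · have := hu.1 i j
    rw [mem_vO129] at this ⊢
    rw [coe_glAut340, hs]; exact this
  · have := hu.2 i j
    rw [mem_vO129] at this ⊢
    rw [← map_inv, coe_glAut340, hs]; exact this

theorem cartan_twc_inU340 (y : GL (Fin 2) k) {u : GL (Fin 2) k} (hu : InU 0 u) :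
    cartan (twc340 s y u) = cartan y := by
  unfold twc340
  exact cartan_mul129 (inU_zero_inv129 hu) (inU_zero_glAut340 s hs hu)

theorem cartan_twc_scal340 (y : GL (Fin 2) k) (z : k) (hz : z ≠ 0) :
    cartan (twc340 s y (scal340 z hz)) = cartan y := by
  rw [twc340_scal]
  have hv : Valued.v (s z / z) = 1 := by
    have hvz : Valued.v z ≠ 0 := by rwa [ne_eq, map_eq_zero]
    rw [map_div₀, hs, div_self hvz]
  have := cartan_mul129 (g := y) inU_zero_one340
    (inU_zero_scal340 (div_ne_zero (by simpa using hz) hz) hv)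
  rwa [one_mul] at this

/-- The twisted conjugates of `δ` by two elements defining the same vertex have the same Cartan
invariant. -/
theorem cartan_twc_congr340 (δ : GL (Fin 2) k) {x x' : GL (Fin 2) k}
    (h : cdist340 (x⁻¹ * x') = 0) : cartan (twc340 s δ x) = cartan (twc340 s δ x') := by
  obtain ⟨z, hz, u, hu, e⟩ := (cdist340_eq_zero_iff _).mp h
  have e' : x' = x * scal340 z hz * u := by
    rw [mul_assoc, ← e]; group
  rw [e', twc340_mul, twc340_mul, cartan_twc_inU340 s hs _ hu, cartan_twc_scal340 s hs]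

/-- The invariant of a vertex under the twisted action of `δ`:
`twInv340 ⟦x⟧ = cartan (x⁻¹ δ s(x))`. -/
def twInv340 (δ : GL (Fin 2) k) : BTVert340 k → ℤ × ℤ :=
  Quotient.lift (s := btSetoid340 k) (fun x => cartan (twc340 s δ x))
    (fun _ _ h => cartan_twc_congr340 s hs δ h)

theorem twInv340_mk (δ x : GL (Fin 2) k) :
    twInv340 s hs δ (btMk340 x) = cartan (x⁻¹ * δ * glAut s x) := rfl

theorem vdet_twc340 (δ x : GL (Fin 2) k) :
    Valued.v ((twc340 s δ x : GL (Fin 2) k) : Matrix (Fin 2) (Fin 2) k).det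
      = Valued.v (δ : Matrix (Fin 2) (Fin 2) k).det := by
  have h2 : ((glAut s x : GL (Fin 2) k) : Matrix (Fin 2) (Fin 2) k).det
      = s (x : Matrix (Fin 2) (Fin 2) k).det := by
    rw [Matrix.det_fin_two, Matrix.det_fin_two]
    simp only [coe_glAut340, map_sub, map_mul]
  have hx : Valued.v (x : Matrix (Fin 2) (Fin 2) k).det ≠ 0 := vdet_ne_zero340 x
  unfold twc340
  rw [Matrix.GeneralLinearGroup.coe_mul, Matrix.GeneralLinearGroup.coe_mul, Matrix.det_mul,
    Matrix.det_mul, map_mul, map_mul, h2, hs, Matrix.coe_units_inv, Matrix.det_nonsing_inv,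
    Ring.inverse_eq_inv', map_inv₀, mul_comm _ (Valued.v (δ : Matrix (Fin 2) (Fin 2) k).det),
    mul_assoc, inv_mul_cancel₀ hx, mul_one]

/-- The invariant of a vertex is determined by its displacement and the determinant of `δ`. -/
theorem twInv340_eq_iff (δ : GL (Fin 2) k) (p : BTVert340 k) (lam : ℤ × ℤ) :
    twInv340 s hs δ p = lam ↔
      ((btDist340 p (btTw340 s hs δ p) : ℕ) : ℤ) = lam.1 - lam.2 ∧
        lam.1 + lam.2 = - WithZero.log (Valued.v (δ : Matrix (Fin 2) (Fin 2) k).det) := by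
  obtain ⟨x, rfl⟩ := btMk340_surjective p
  rw [twInv340_mk, btDist340_tw_mk]
  have h1 := cartan_fst_sub_snd340 (x⁻¹ * δ * glAut s x)
  have h2 := cartan_fst_add_snd340 (x⁻¹ * δ * glAut s x)
  have h3 := vdet_twc340 s hs δ x
  unfold twc340 at h3
  rw [h3] at h2
  constructor
  · rintro rfl
    exact ⟨h1.symm, h2⟩
  · rintro ⟨e1, e2⟩
    ext
    · omega
    · omega

end

/-! ### The fibres of the vertices over the `U`-twisted classes -/

section Main

variable (s : k ≃+* k) (hs : ∀ y : k, Valued.v (s y) = Valued.v y)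
  (hfix : ∀ z : k, z ≠ 0 → ∃ z₀ : k, z₀ ≠ 0 ∧ s z₀ = z₀ ∧ Valued.v z₀ = Valued.v z)
  (δ : GL (Fin 2) k)

/-- The fibre of the `U`-twisted class of `y` over the vertices. -/
def fib340 (y : GL (Fin 2) k) : Set (BTVert340 k) :=
  {p | ∃ g, p = btMk340 g ∧ ∃ u, InU 0 u ∧ twc340 s δ g = twc340 s y u}

include hs hfix

/-- Two elements defining the same vertex give `U`-twisted conjugate elements. -/
theorem twc_same_vertex340 {g g' : GL (Fin 2) k} (h : cdist340 (g⁻¹ * g') = 0) :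
    ∃ w, InU 0 w ∧ twc340 s δ g' = twc340 s (twc340 s δ g) w := by
  obtain ⟨z, hz, u, hu, e⟩ := (cdist340_eq_zero_iff _).mp h
  obtain ⟨z₀, hz₀, hsz₀, hvz₀⟩ := hfix z hz
  have hvz : Valued.v z ≠ 0 := by rwa [ne_eq, map_eq_zero]
  have hε0 : z / z₀ ≠ 0 := div_ne_zero hz hz₀
  have hε : Valued.v (z / z₀) = 1 := by rw [map_div₀, hvz₀, div_self hvz]
  refine ⟨scal340 (z / z₀) hε0 * u, inU_zero_mul129 (inU_zero_scal340 hε0 hε) hu, ?_⟩
  have e' : g' = g * scal340 z₀ hz₀ * (scal340 (z / z₀) hε0 * u) := by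
    have e1 : scal340 z₀ hz₀ * scal340 (z / z₀) hε0 = scal340 z hz := by
      rw [scal340_mul_scal]
      exact scal340_congr _ _ (by field_simp)
    rw [mul_assoc g, ← mul_assoc (scal340 z₀ hz₀), e1, ← e]
    group
  rw [e', twc340_mul s δ (g * scal340 z₀ hz₀), twc340_mul s δ g, twc340_scal_fixed s _ hz₀ hsz₀]

theorem mem_fib340_iff (y g : GL (Fin 2) k) :
    btMk340 g ∈ fib340 s δ y ↔ ∃ u, InU 0 u ∧ twc340 s δ g = twc340 s y u := by
  constructor
  · rintro ⟨g', hgg', u, hu, h⟩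
    have h0 : cdist340 (g'⁻¹ * g) = 0 := (btMk340_eq_iff g' g).mp hgg'.symm
    obtain ⟨w, hw, e⟩ := twc_same_vertex340 s hs hfix δ h0
    refine ⟨u * w, inU_zero_mul129 hu hw, ?_⟩
    rw [e, h, twc340_mul]
  · rintro ⟨u, hu, h⟩
    exact ⟨g, rfl, u, hu, h⟩

theorem twInv_of_mem_fib340 {y : GL (Fin 2) k} {p : BTVert340 k} (hp : p ∈ fib340 s δ y) :
    twInv340 s hs δ p = cartan y := by
  obtain ⟨g, rfl, u, hu, h⟩ := hp
  show cartan (twc340 s δ g) = cartan y
  rw [h, cartan_twc_inU340 s hs y hu]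

theorem fib340_conj {y y' : GL (Fin 2) k} {p : BTVert340 k} (hp : p ∈ fib340 s δ y)
    (hp' : p ∈ fib340 s δ y') : ∃ u, InU 0 u ∧ y' = twc340 s y u := by
  obtain ⟨g, rfl⟩ := btMk340_surjective p
  obtain ⟨u, hu, h⟩ := (mem_fib340_iff s hs hfix δ y g).mp hp
  obtain ⟨u', hu', h'⟩ := (mem_fib340_iff s hs hfix δ y' g).mp hp'
  refine ⟨u * u'⁻¹, inU_zero_mul129 hu (inU_zero_inv129 hu'), ?_⟩
  rw [twc340_mul, ← h, h', twc340_mul_inv_cancel]

omit hs hfix in
/-- Transport of the decomposition of the twisted centraliser along the twisted class. -/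
theorem hdec_twc340
    (hdec : ∀ t, InTwCent s δ t →
      ∃ (z : k) (hz : z ≠ 0), s z = z ∧ InTwCentC s δ (scal340 z hz * t))
    (x t : GL (Fin 2) k) (ht : InTwCent s (twc340 s δ x) t) :
    ∃ (z : k) (hz : z ≠ 0), s z = z ∧ InTwCentC s (twc340 s δ x) (scal340 z hz * t) := by
  have hτ : InTwCent s δ (x * t * x⁻¹) := by
    rw [inTwCent_iff340, twc340_mul, twc340_mul, (inTwCent_iff340 s _ t).mp ht,
      twc340_mul_inv_cancel]
  obtain ⟨z, hz, hsz, hC⟩ := hdec _ hτ
  have e0 : x⁻¹ * (scal340 z hz * (x * t * x⁻¹)) * x = scal340 z hz * t := by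
    rw [scal340_comm z hz (x * t * x⁻¹)]
    have e1 : x⁻¹ * (x * t * x⁻¹ * scal340 z hz) * x = t * (x⁻¹ * (scal340 z hz * x)) := by
      group
    rw [e1, scal340_comm z hz x, inv_mul_cancel_left, scal340_comm]
  refine ⟨z, hz, hsz, ?_, ?_, ?_⟩
  · rw [inTwCent_iff340, twc340_mul, twc340_scal_fixed s _ hz hsz]
    exact ht
  · have e : ((scal340 z hz * t : GL (Fin 2) k) : Matrix (Fin 2) (Fin 2) k)
        = ((x⁻¹ : GL (Fin 2) k) : Matrix (Fin 2) (Fin 2) k)
          * ((scal340 z hz * (x * t * x⁻¹) : GL (Fin 2) k) : Matrix (Fin 2) (Fin 2) k)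
          * (x : Matrix (Fin 2) (Fin 2) k) := by
      rw [← Matrix.GeneralLinearGroup.coe_mul, ← Matrix.GeneralLinearGroup.coe_mul, e0]
    rw [e, Matrix.trace_units_conj']
    exact hC.2.1
  · have e : ((scal340 z hz * t : GL (Fin 2) k) : Matrix (Fin 2) (Fin 2) k)
        = ((x⁻¹ : GL (Fin 2) k) : Matrix (Fin 2) (Fin 2) k)
          * ((scal340 z hz * (x * t * x⁻¹) : GL (Fin 2) k) : Matrix (Fin 2) (Fin 2) k)
          * (x : Matrix (Fin 2) (Fin 2) k) := by
      rw [← Matrix.GeneralLinearGroup.coe_mul, ← Matrix.GeneralLinearGroup.coe_mul, e0]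
    rw [e, Matrix.det_units_conj']
    exact hC.2.2

omit hs hfix in
theorem vdet_scal_mul340 (z : k) (hz : z ≠ 0) (u : GL (Fin 2) k) :
    Valued.v ((scal340 z hz * u : GL (Fin 2) k) : Matrix (Fin 2) (Fin 2) k).det
      = Valued.v z * Valued.v z * Valued.v (u : Matrix (Fin 2) (Fin 2) k).det := by
  rw [Matrix.GeneralLinearGroup.coe_mul, Matrix.det_mul, det_scal340, map_mul, map_mul]

omit hs hfix in
theorem coset_eq340 {t t' w : GL (Fin 2) k} (hw : InU 0 w) (h : t' = t * w) :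
    {g : GL (Fin 2) k | ∃ u, InU 0 u ∧ g = t' * u} = {g | ∃ u, InU 0 u ∧ g = t * u} := by
  ext g
  constructor
  · rintro ⟨u, hu, rfl⟩
    exact ⟨w * u, inU_zero_mul129 hw hu, by rw [h, mul_assoc]⟩
  · rintro ⟨u, hu, rfl⟩
    exact ⟨w⁻¹ * u, inU_zero_mul129 (inU_zero_inv129 hw) hu, by rw [h]; group⟩

/-- **Fibre count.**  If the twisted centraliser of `δ` is generated by its compact part and
`s`-fixed scalars, the number of vertices over the `U`-twisted class of `y = x⁻¹ δ s(x)` is the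
index `[T_y^c : T_y^c ∩ U]`. -/
theorem ncard_fib340
    (hdec : ∀ t, InTwCent s δ t →
      ∃ (z : k) (hz : z ≠ 0), s z = z ∧ InTwCentC s δ (scal340 z hz * t))
    (x : GL (Fin 2) k) :
    (fib340 s δ (twc340 s δ x)).ncard = cIndex (InU 0) (InTwCentC s) (twc340 s δ x) := by
  unfold cIndex
  symm
  refine Set.ncard_congr (fun c hc => btMk340 (x * hc.choose)) ?_ ?_ ?_
  · intro c hc
    obtain ⟨ht, -⟩ := hc.choose_spec
    refine ⟨x * hc.choose, rfl, 1, inU_zero_one340, ?_⟩
    rw [twc340_mul, (inTwCent_iff340 s _ _).mp ht.1, twc340_one]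
  · intro c c' hc hc' h
    obtain ⟨ht, hct⟩ := hc.choose_spec
    obtain ⟨ht', hct'⟩ := hc'.choose_spec
    set t := hc.choose with htdef
    set t' := hc'.choose with ht'def
    have h0 : cdist340 (t⁻¹ * t') = 0 := by
      have := (btMk340_eq_iff _ _).mp h
      have e : (x * t)⁻¹ * (x * t') = t⁻¹ * t' := by group
      rwa [e] at this
    obtain ⟨z, hz, u, hu, e⟩ := (cdist340_eq_zero_iff _).mp h0
    have hvz : Valued.v z = 1 := by
      have hd : Valued.v ((t⁻¹ * t' : GL (Fin 2) k) : Matrix (Fin 2) (Fin 2) k).det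
          = Valued.v ((scal340 z hz * u : GL (Fin 2) k) : Matrix (Fin 2) (Fin 2) k).det := by
        rw [e]
      rw [vdet_inv_mul340, ht.2.2, ht'.2.2, inv_one, one_mul, vdet_scal_mul340,
        valued_det_of_isMaxCpt129 ((inU_zero_iff129 u).mp hu), mul_one] at hd
      rcases lt_trichotomy (Valued.v z) 1 with hlt | heq | hgt
      · exfalso
        have : Valued.v z * Valued.v z < 1 := by
          calc Valued.v z * Valued.v z ≤ Valued.v z * 1 := mul_le_mul' le_rfl hlt.le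
            _ = Valued.v z := mul_one _
            _ < 1 := hlt
        rw [← hd] at this
        exact lt_irrefl _ this
      · exact heq
      · exfalso
        have : 1 < Valued.v z * Valued.v z := by
          calc (1 : Γ₀) < Valued.v z := hgt
            _ = Valued.v z * 1 := (mul_one _).symm
            _ ≤ Valued.v z * Valued.v z := mul_le_mul' le_rfl hgt.le
        rw [← hd] at this
        exact lt_irrefl _ this
    have hw : InU 0 (scal340 z hz * u) := inU_zero_mul129 (inU_zero_scal340 hz hvz) hu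
    have ht't : t' = t * (scal340 z hz * u) := by rw [← e]; group
    rw [hct, hct']
    exact (coset_eq340 hw ht't).symm
  · intro p hp
    obtain ⟨g, rfl, u, hu, h⟩ := hp
    -- `t = x⁻¹ g u⁻¹` lies in the twisted centraliser of `y`
    have ht : InTwCent s (twc340 s δ x) (x⁻¹ * (g * u⁻¹)) := by
      rw [inTwCent_iff340, ← twc340_mul, mul_inv_cancel_left, twc340_mul, h,
        twc340_mul_inv_cancel]
    obtain ⟨z, hz, hsz, hC⟩ := hdec_twc340 s δ hdec x _ ht
    have hc : ∃ t, InTwCentC s (twc340 s δ x) t ∧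
        {g' : GL (Fin 2) k | ∃ u' : GL (Fin 2) k, InU 0 u' ∧
            g' = scal340 z hz * (x⁻¹ * (g * u⁻¹)) * u'}
          = {g' | ∃ u' : GL (Fin 2) k, InU 0 u' ∧ g' = t * u'} := ⟨_, hC, rfl⟩
    refine ⟨_, hc, ?_⟩
    obtain ⟨-, hct⟩ := hc.choose_spec
    set t'' := hc.choose with ht''
    have hmem : t'' ∈ {g' : GL (Fin 2) k | ∃ u' : GL (Fin 2) k, InU 0 u' ∧ g' = t'' * u'} :=
      ⟨1, inU_zero_one340, (mul_one _).symm⟩
    rw [← hct] at hmem
    obtain ⟨u₂, hu₂, e₂⟩ := hmem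
    show btMk340 (x * t'') = btMk340 g
    symm
    rw [btMk340_eq_iff]
    have e3 : g⁻¹ * (x * t'') = scal340 z hz * (u⁻¹ * u₂) := by
      calc g⁻¹ * (x * t'')
          = g⁻¹ * (x * ((x⁻¹ * (g * u⁻¹)) * scal340 z hz * u₂)) := by
            rw [e₂, scal340_comm z hz (x⁻¹ * (g * u⁻¹))]
        _ = u⁻¹ * (scal340 z hz * u₂) := by group
        _ = scal340 z hz * (u⁻¹ * u₂) := by
            rw [← mul_assoc, ← scal340_comm z hz u⁻¹, mul_assoc]
    rw [e3, cdist340_scal_mul]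
    exact cdist340_of_inU (inU_zero_mul129 (inU_zero_inv129 hu) hu₂)

/-- **Orbit sum = vertex sum** (Finset form).  `k / k^s` unramified (`hfix`), the twisted
centraliser of `δ` is generated by its compact part and the `s`-fixed scalars (`hdec`): the
twisted orbit sum of `ϕ ∘ cartan` at `δ` is the sum of `ϕ (twInv340 p)` over any finite set of
vertices containing those with `ϕ (twInv340 p) ≠ 0`. -/
theorem twOrbSum_eq_vertexSum340
    (hdec : ∀ t, InTwCent s δ t →
      ∃ (z : k) (hz : z ≠ 0), s z = z ∧ InTwCentC s δ (scal340 z hz * t))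
    (ϕ : ℤ × ℤ → ℂ) (c : ℂ) (hc : IsTwOrbSum s 0 (fun g => ϕ (cartan g)) δ c)
    (S : Finset (BTVert340 k)) (hS : ∀ p, ϕ (twInv340 s hs δ p) ≠ 0 → p ∈ S) :
    c = ∑ p ∈ S, ϕ (twInv340 s hs δ p) := by
  obtain ⟨R, h1, h2, h3, rfl⟩ := hc
  have hA : ∀ p ∈ S, ϕ (twInv340 s hs δ p)
      = ∑ y ∈ R, if p ∈ fib340 s δ y then ϕ (cartan y) else 0 := by
    intro p _
    by_cases hp0 : ϕ (twInv340 s hs δ p) = 0
    · rw [hp0]
      symm
      apply Finset.sum_eq_zero
      intro y _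
      split_ifs with hy
      · rw [← twInv_of_mem_fib340 s hs hfix δ hy, hp0]
      · rfl
    · obtain ⟨g, rfl⟩ := btMk340_surjective p
      obtain ⟨y', hy'R, u', hu', he'⟩ := h3 (twc340 s δ g) ⟨g, rfl⟩ hp0
      have hmem : btMk340 g ∈ fib340 s δ y' := ⟨g, rfl, u', hu', he'⟩
      rw [Finset.sum_eq_single y']
      · rw [if_pos hmem, twInv_of_mem_fib340 s hs hfix δ hmem]
      · intro y hyR hne
        rw [if_neg]
        intro hy
        obtain ⟨u, hu, e⟩ := fib340_conj s hs hfix δ hy hmem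
        exact hne (h2 y hyR y' hy'R ⟨u, hu, e⟩)
      · intro hn; exact absurd hy'R hn
  rw [Finset.sum_congr rfl hA, Finset.sum_comm]
  apply Finset.sum_congr rfl
  intro y hyR
  show ϕ (cartan y) * (cIndex (InU 0) (InTwCentC s) y : ℂ) = _
  rw [Finset.sum_ite, Finset.sum_const, Finset.sum_const_zero, add_zero, nsmul_eq_mul,
    mul_comm (ϕ (cartan y))]
  by_cases hy0 : ϕ (cartan y) = 0
  · rw [hy0, mul_zero, mul_zero]
  · congr 1
    obtain ⟨x, rfl⟩ := h1 y hyR
    have hfib : (↑(S.filter fun p => p ∈ fib340 s δ (x⁻¹ * δ * glAut s x)) :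
        Set (BTVert340 k)) = fib340 s δ (twc340 s δ x) := by
      ext p
      simp only [Finset.coe_filter, Set.mem_ofPred_eq]
      constructor
      · rintro ⟨-, hp⟩
        exact hp
      · intro hp
        refine ⟨hS p ?_, hp⟩
        rw [twInv_of_mem_fib340 s hs hfix δ hp]
        exact hy0
    have := ncard_fib340 s hs hfix δ hdec x
    rw [← hfib, Set.ncard_coe_finset] at this
    exact_mod_cast this.symm

end Main

/-! ### Count form, the unramified hypothesis, the untwisted case -/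

section Count

variable (s : k ≃+* k) (hs : ∀ y : k, Valued.v (s y) = Valued.v y)
  (hfix : ∀ z : k, z ≠ 0 → ∃ z₀ : k, z₀ ≠ 0 ∧ s z₀ = z₀ ∧ Valued.v z₀ = Valued.v z)
  (δ : GL (Fin 2) k)

include hfix in
/-- **Orbit sum = vertex sum** (count form): `c = ∑ ϕ(lam) · #{p : twInv340 p = lam}`. -/
theorem twOrbSum_eq_countSum340
    (hdec : ∀ t, InTwCent s δ t →
      ∃ (z : k) (hz : z ≠ 0), s z = z ∧ InTwCentC s δ (scal340 z hz * t))
    (ϕ : (ℤ × ℤ) →₀ ℂ) (c : ℂ) (hc : IsTwOrbSum s 0 (fun g => ϕ (cartan g)) δ c)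
    (hfin : ∀ lam ∈ ϕ.support, {p | twInv340 s hs δ p = lam}.Finite) :
    c = ϕ.sum fun lam a => a * (({p | twInv340 s hs δ p = lam}.ncard : ℕ) : ℂ) := by
  set S : Finset (BTVert340 k) :=
    ϕ.support.attach.biUnion fun lam => (hfin lam.1 lam.2).toFinset with hSdef
  have hmemS : ∀ p, p ∈ S ↔ twInv340 s hs δ p ∈ ϕ.support := by
    intro p
    rw [hSdef, Finset.mem_biUnion]
    constructor
    · rintro ⟨lam, -, hp⟩
      rw [Set.Finite.mem_toFinset] at hp
      have hp' : twInv340 s hs δ p = lam.1 := hp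
      rw [hp']
      exact lam.2
    · intro hp
      refine ⟨⟨_, hp⟩, Finset.mem_attach _ _, ?_⟩
      rw [Set.Finite.mem_toFinset]
      rfl
  have h0 := twOrbSum_eq_vertexSum340 s hs hfix δ hdec (fun lam => ϕ lam) c hc S
    (fun p hp => (hmemS p).mpr (Finsupp.mem_support_iff.mpr hp))
  rw [h0, Finsupp.sum]
  rw [← Finset.sum_fiberwise_of_maps_to (g := fun p => twInv340 s hs δ p)
    (fun p hp => (hmemS p).mp hp)]
  apply Finset.sum_congr rfl
  intro lam hlam
  have e1 : ∀ p ∈ S.filter (fun p => twInv340 s hs δ p = lam),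
      (fun lam => ϕ lam) (twInv340 s hs δ p) = ϕ lam := by
    intro p hp
    rw [(Finset.mem_filter.mp hp).2]
  rw [Finset.sum_congr rfl e1, Finset.sum_const, nsmul_eq_mul, mul_comm]
  congr 2
  rw [← Set.ncard_coe_finset]
  congr 1
  ext p
  simp only [Finset.coe_filter, Set.mem_ofPred_eq]
  constructor
  · rintro ⟨-, hp⟩
    exact hp
  · intro hp
    refine ⟨(hmemS p).mpr ?_, hp⟩
    have hp' : twInv340 s hs δ p = lam := hp
    rw [hp']
    exact hlam

omit hfix in
/-- The unramified hypothesis from an `s`-fixed uniformiser. -/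
theorem hfix_of_unif340 {ϖ : k} (hϖ : Valued.v ϖ = WithZero.exp (-1 : ℤ)) (hsϖ : s ϖ = ϖ) :
    ∀ z : k, z ≠ 0 → ∃ z₀ : k, z₀ ≠ 0 ∧ s z₀ = z₀ ∧ Valued.v z₀ = Valued.v z := by
  intro z hz
  have h0 := unif_ne_zero340 hϖ
  have hvz : Valued.v z ≠ 0 := by rwa [ne_eq, map_eq_zero]
  refine ⟨ϖ ^ (- WithZero.log (Valued.v z)), zpow_ne_zero _ h0, ?_, ?_⟩
  · rw [map_zpow₀, hsϖ]
  · rw [map_zpow₀, hϖ, ← WithZero.exp_zsmul]
    simp only [smul_eq_mul, mul_neg, mul_one, neg_neg]
    exact WithZero.exp_log hvz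

end Count

section Untwisted

theorem glAut_refl340 (x : GL (Fin 2) k) : glAut (RingEquiv.refl k) x = x := by
  apply ext_mat129
  ext i j
  rw [coe_glAut340]
  rfl

/-- The invariant of a vertex under `γ`: `inv340 γ ⟦x⟧ = cartan (x⁻¹ γ x)`. -/
def inv340 (γ : GL (Fin 2) k) : BTVert340 k → ℤ × ℤ :=
  twInv340 (RingEquiv.refl k) (fun _ => rfl) γ

theorem inv340_mk (γ x : GL (Fin 2) k) : inv340 γ (btMk340 x) = cartan (x⁻¹ * γ * x) := by
  unfold inv340
  rw [twInv340_mk, glAut_refl340]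

theorem btTw340_refl (γ : GL (Fin 2) k) (p : BTVert340 k) :
    btTw340 (RingEquiv.refl k) (fun _ => rfl) γ p = btMul340 γ p := by
  obtain ⟨x, rfl⟩ := btMk340_surjective p
  rw [btTw340_mk, btMul340_mk, glAut_refl340]

theorem inv340_eq_iff (γ : GL (Fin 2) k) (p : BTVert340 k) (lam : ℤ × ℤ) :
    inv340 γ p = lam ↔
      ((btDist340 p (btMul340 γ p) : ℕ) : ℤ) = lam.1 - lam.2 ∧
        lam.1 + lam.2 = - WithZero.log (Valued.v (γ : Matrix (Fin 2) (Fin 2) k).det) := by
  unfold inv340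
  rw [twInv340_eq_iff, btTw340_refl]

theorem inTwCent_refl_iff340 (γ t : GL (Fin 2) k) :
    InTwCent (RingEquiv.refl k) γ t ↔ t * γ = γ * t := by
  unfold InTwCent
  rw [glAut_refl340]
  constructor
  · intro h
    have : t * (t⁻¹ * γ * t) = t * γ := by rw [h]
    rw [← this]; group
  · intro h
    have : t⁻¹ * γ * t = t⁻¹ * (γ * t) := by group
    rw [this, ← h]; group

/-- **Orbit sum = vertex sum, untwisted** (Finset form).  If every element of the centraliser of
`γ` is a scalar times an element of its compact part (elliptic `γ` with `k[γ]` unramified), the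
orbit sum of `ϕ ∘ cartan` at `γ` is the sum of `ϕ (inv340 γ p)` over the vertices. -/
theorem orbSum_eq_vertexSum340 (γ : GL (Fin 2) k)
    (hdec : ∀ t : GL (Fin 2) k, t * γ = γ * t →
      ∃ (z : k) (hz : z ≠ 0), InTwCentC (RingEquiv.refl k) γ (scal340 z hz * t))
    (ϕ : ℤ × ℤ → ℂ) (c : ℂ) (hc : IsOrbSum 0 (fun g => ϕ (cartan g)) γ c)
    (S : Finset (BTVert340 k)) (hS : ∀ p, ϕ (inv340 γ p) ≠ 0 → p ∈ S) :
    c = ∑ p ∈ S, ϕ (inv340 γ p) :=
  twOrbSum_eq_vertexSum340 (RingEquiv.refl k) (fun _ => rfl)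
    (fun z hz => ⟨z, hz, rfl, rfl⟩) γ
    (fun t ht => by
      obtain ⟨z, hz, h⟩ := hdec t ((inTwCent_refl_iff340 γ t).mp ht)
      exact ⟨z, hz, rfl, h⟩)
    ϕ c hc S hS

/-- **Orbit sum = vertex sum, untwisted** (count form). -/
theorem orbSum_eq_countSum340 (γ : GL (Fin 2) k)
    (hdec : ∀ t : GL (Fin 2) k, t * γ = γ * t →
      ∃ (z : k) (hz : z ≠ 0), InTwCentC (RingEquiv.refl k) γ (scal340 z hz * t))
    (ϕ : (ℤ × ℤ) →₀ ℂ) (c : ℂ) (hc : IsOrbSum 0 (fun g => ϕ (cartan g)) γ c)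
    (hfin : ∀ lam ∈ ϕ.support, {p | inv340 γ p = lam}.Finite) :
    c = ϕ.sum fun lam a => a * (({p | inv340 γ p = lam}.ncard : ℕ) : ℂ) :=
  twOrbSum_eq_countSum340 (RingEquiv.refl k) (fun _ => rfl)
    (fun z hz => ⟨z, hz, rfl, rfl⟩) γ
    (fun t ht => by
      obtain ⟨z, hz, h⟩ := hdec t ((inTwCent_refl_iff340 γ t).mp ht)
      exact ⟨z, hz, rfl, h⟩)
    ϕ c hc hfin

end Untwisted

end Fermat.Agent.LT.T6.H340

end
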