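import Fermat.Agent.LT.T6.Spec
import Fermat.Agent.LT.H129.CartanInv

/-!
# Row LT, tower T6, helper340: the Cartan distance on `GL₂(k)` (OFF-MAIN)

Against `LT/T6/Spec.lean` (helper22, byte-identical copy) and `LT/H129/CartanInv.lean`
(helper129, byte-identical copy).  `k` is a field with `Valued k ℤᵐ⁰`; no completeness and no
finiteness is used in this file.

`cdist340 g = a - b` for the Cartan invariant `(a, b)` of `g`.

* `cdist340_eq_iff` : `cdist340 g = n ↔ entryMax g ^ 2 = v (det g) * exp n`;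
* `cdist340_mul_left`, `cdist340_mul_right` (invariance under `U(0) = GL₂(𝒪)`),
  `cdist340_scal_mul` (scalars), `cdist340_inv`, `cdist340_glAut`;
* `cdist340_eq_zero_iff` : `cdist340 g = 0 ↔ g ∈ k^× · GL₂(𝒪)`;
* `cdist340_mul_of_zero_left/right` : elements of distance zero do not change `cdist340`;
* `exists_decomp340` : Cartan decomposition together with the value of `cdist340`.
-/

set_option autoImplicit false
set_option linter.unusedSectionVars false

open Matrix

noncomputable section

namespace Fermat.Agent.LT.T6.H340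

open Fermat.Agent.LT.T6 Fermat.Agent.LT.H129

variable {k : Type} [Field k] [Valued k Γ₀]

/-- The distance `a - b` of the Cartan invariant `(a, b)` of `g`. -/
def cdist340 (g : GL (Fin 2) k) : ℕ := ((cartan g).1 - (cartan g).2).toNat

theorem vdet_ne_zero340 (g : GL (Fin 2) k) :
    Valued.v (g : Matrix (Fin 2) (Fin 2) k).det ≠ 0 := by
  rw [ne_eq, map_eq_zero]
  exact det_ne_zero_gl129 g

theorem vdet_le_sq340 (g : GL (Fin 2) k) :
    Valued.v (g : Matrix (Fin 2) (Fin 2) k).det ≤ entryMax g ^ 2 := by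
  rw [Matrix.det_fin_two, sq]
  refine le_trans (Valuation.map_sub _ _ _) (max_le ?_ ?_)
  · rw [map_mul]
    exact mul_le_mul' (entry_le_entryMax129 g 0 0) (entry_le_entryMax129 g 1 1)
  · rw [map_mul]
    exact mul_le_mul' (entry_le_entryMax129 g 0 1) (entry_le_entryMax129 g 1 0)

theorem entryMax_ne_zero340 (g : GL (Fin 2) k) : entryMax g ≠ 0 := by
  intro h
  have := vdet_le_sq340 g
  rw [h] at this
  simp only [ne_eq, OfNat.ofNat_ne_zero, not_false_eq_true, zero_pow, nonpos_iff_eq_zero] at this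
  exact vdet_ne_zero340 g this

/-- Multiplicative characterisation of the Cartan distance. -/
theorem cdist340_eq_iff (g : GL (Fin 2) k) (n : ℕ) :
    cdist340 g = n ↔
      entryMax g ^ 2 = Valued.v (g : Matrix (Fin 2) (Fin 2) k).det * WithZero.exp (n : ℤ) := by
  have he := entryMax_ne_zero340 g
  have hd := vdet_ne_zero340 g
  have hle := vdet_le_sq340 g
  have hlog : WithZero.log (Valued.v (g : Matrix (Fin 2) (Fin 2) k).det)
      ≤ 2 * WithZero.log (entryMax g) := by
    have := (WithZero.log_le_log hd (pow_ne_zero 2 he)).mpr hle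
    rw [WithZero.log_pow] at this
    simpa using this
  have hval : (cartan g).1 - (cartan g).2
      = 2 * WithZero.log (entryMax g)
        - WithZero.log (Valued.v (g : Matrix (Fin 2) (Fin 2) k).det) := by
    unfold cartan
    ring
  unfold cdist340
  rw [hval]
  constructor
  · intro h
    have h2 : 2 * WithZero.log (entryMax g)
        - WithZero.log (Valued.v (g : Matrix (Fin 2) (Fin 2) k).det) = (n : ℤ) := by
      omega
    have h3 : WithZero.log (entryMax g ^ 2)
        = WithZero.log (Valued.v (g : Matrix (Fin 2) (Fin 2) k).det * WithZero.exp (n : ℤ)) := by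
      rw [WithZero.log_pow, WithZero.log_mul hd WithZero.exp_ne_zero, WithZero.log_exp]
      simp only [nsmul_eq_mul, Nat.cast_ofNat]
      omega
    exact log_inj129 (pow_ne_zero 2 he) (mul_ne_zero hd WithZero.exp_ne_zero) h3
  · intro h
    have h3 := congrArg WithZero.log h
    rw [WithZero.log_pow, WithZero.log_mul hd WithZero.exp_ne_zero, WithZero.log_exp] at h3
    simp only [nsmul_eq_mul, Nat.cast_ofNat] at h3
    omega

theorem cdist340_spec (g : GL (Fin 2) k) :
    entryMax g ^ 2
      = Valued.v (g : Matrix (Fin 2) (Fin 2) k).det * WithZero.exp ((cdist340 g : ℕ) : ℤ) :=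
  (cdist340_eq_iff g _).mp rfl

/-! ### Explicit matrices -/

omit [Valued k Γ₀] in
theorem det_mkGL340 (a b c d : k) (h : a * d - b * c ≠ 0) :
    ((mkGL129 a b c d h : GL (Fin 2) k) : Matrix (Fin 2) (Fin 2) k).det = a * d - b * c := by
  rw [coe_mkGL129, Matrix.det_fin_two_of]

theorem entryMax_mkGL340 {a b c d : k} (h : a * d - b * c ≠ 0) {M : Γ₀}
    (ha : Valued.v a ≤ M) (hb : Valued.v b ≤ M) (hc : Valued.v c ≤ M) (hd : Valued.v d ≤ M)
    (hex : Valued.v a = M ∨ Valued.v b = M ∨ Valued.v c = M ∨ Valued.v d = M) :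
    entryMax (mkGL129 a b c d h) = M := by
  apply le_antisymm
  · apply entryMax_le129
    intro i j
    fin_cases i <;> fin_cases j <;> simpa using by assumption
  · rcases hex with e | e | e | e
    · have := entry_le_entryMax129 (mkGL129 a b c d h) 0 0
      simpa [e] using this
    · have := entry_le_entryMax129 (mkGL129 a b c d h) 0 1
      simpa [e] using this
    · have := entry_le_entryMax129 (mkGL129 a b c d h) 1 0
      simpa [e] using this
    · have := entry_le_entryMax129 (mkGL129 a b c d h) 1 1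
      simpa [e] using this

/-- The Cartan distance of an explicit matrix. -/
theorem cdist340_mkGL {a b c d : k} (h : a * d - b * c ≠ 0) {M : Γ₀} {n : ℕ}
    (ha : Valued.v a ≤ M) (hb : Valued.v b ≤ M) (hc : Valued.v c ≤ M) (hd : Valued.v d ≤ M)
    (hex : Valued.v a = M ∨ Valued.v b = M ∨ Valued.v c = M ∨ Valued.v d = M)
    (hM : M ^ 2 = Valued.v (a * d - b * c) * WithZero.exp (n : ℤ)) :
    cdist340 (mkGL129 a b c d h) = n := by
  rw [cdist340_eq_iff, entryMax_mkGL340 h ha hb hc hd hex, det_mkGL340, hM]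

/-! ### Invariance -/

theorem inU_zero_one340 : InU 0 (1 : GL (Fin 2) k) :=
  (inU_zero_iff129 _).mpr (isMaxCpt129_one _)

theorem cdist340_mul_right (g : GL (Fin 2) k) {u : GL (Fin 2) k} (hu : InU 0 u) :
    cdist340 (g * u) = cdist340 g := by
  have := cartan_mul129 (g := g) inU_zero_one340 hu
  rw [one_mul] at this
  unfold cdist340
  rw [this]

theorem cdist340_mul_left (g : GL (Fin 2) k) {u : GL (Fin 2) k} (hu : InU 0 u) :
    cdist340 (u * g) = cdist340 g := by
  have := cartan_mul129 (g := g) hu inU_zero_one340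
  rw [mul_one] at this
  unfold cdist340
  rw [this]

/-- The scalar matrix `z`. -/
def scal340 (z : k) (hz : z ≠ 0) : GL (Fin 2) k := diag129 z z hz hz

omit [Valued k Γ₀] in
theorem coe_scal340 (z : k) (hz : z ≠ 0) :
    ((scal340 z hz : GL (Fin 2) k) : Matrix (Fin 2) (Fin 2) k) = !![z, 0; 0, z] := rfl

theorem scal340_mul_apply (z : k) (hz : z ≠ 0) (g : GL (Fin 2) k) (i j : Fin 2) :
    ((scal340 z hz * g : GL (Fin 2) k) : Matrix (Fin 2) (Fin 2) k) i j
      = z * (g : Matrix (Fin 2) (Fin 2) k) i j := by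
  rw [Matrix.GeneralLinearGroup.coe_mul, coe_scal340, Matrix.mul_apply, Fin.sum_univ_two]
  fin_cases i <;> simp

theorem scal340_comm (z : k) (hz : z ≠ 0) (g : GL (Fin 2) k) :
    scal340 z hz * g = g * scal340 z hz := by
  apply ext_mat129
  ext i j
  rw [scal340_mul_apply, Matrix.GeneralLinearGroup.coe_mul, coe_scal340, Matrix.mul_apply,
    Fin.sum_univ_two]
  fin_cases j <;> simp [mul_comm]

theorem entryMax_scal_mul340 (z : k) (hz : z ≠ 0) (g : GL (Fin 2) k) :
    entryMax (scal340 z hz * g) = Valued.v z * entryMax g := by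
  have hvz : Valued.v z ≠ 0 := by rwa [ne_eq, map_eq_zero]
  apply le_antisymm
  · apply entryMax_le129
    intro i j
    rw [scal340_mul_apply, map_mul]
    exact mul_le_mul' le_rfl (entry_le_entryMax129 g i j)
  · have h1 : entryMax g ≤ (Valued.v z)⁻¹ * entryMax (scal340 z hz * g) := by
      apply entryMax_le129
      intro i j
      have := entry_le_entryMax129 (scal340 z hz * g) i j
      rw [scal340_mul_apply, map_mul] at this
      calc Valued.v ((g : Matrix (Fin 2) (Fin 2) k) i j)
          = (Valued.v z)⁻¹ * (Valued.v z * Valued.v ((g : Matrix (Fin 2) (Fin 2) k) i j)) := by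
            rw [← mul_assoc, inv_mul_cancel₀ hvz, one_mul]
        _ ≤ (Valued.v z)⁻¹ * entryMax (scal340 z hz * g) := mul_le_mul' le_rfl this
    calc Valued.v z * entryMax g
        ≤ Valued.v z * ((Valued.v z)⁻¹ * entryMax (scal340 z hz * g)) := mul_le_mul' le_rfl h1
      _ = entryMax (scal340 z hz * g) := by rw [← mul_assoc, mul_inv_cancel₀ hvz, one_mul]

theorem det_scal340 (z : k) (hz : z ≠ 0) :
    ((scal340 z hz : GL (Fin 2) k) : Matrix (Fin 2) (Fin 2) k).det = z * z := by
  rw [coe_scal340, Matrix.det_fin_two_of]; ring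

theorem cdist340_scal_mul (z : k) (hz : z ≠ 0) (g : GL (Fin 2) k) :
    cdist340 (scal340 z hz * g) = cdist340 g := by
  rw [cdist340_eq_iff, entryMax_scal_mul340, Matrix.GeneralLinearGroup.coe_mul, Matrix.det_mul,
    det_scal340, map_mul, map_mul, mul_pow, cdist340_spec g, sq]
  simp only [mul_assoc]

theorem cdist340_mul_scal (z : k) (hz : z ≠ 0) (g : GL (Fin 2) k) :
    cdist340 (g * scal340 z hz) = cdist340 g := by
  rw [← scal340_comm, cdist340_scal_mul]

/-! ### Diagonal matrices and the Cartan decomposition -/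

theorem cdist340_diag {x y : k} (hx : x ≠ 0) (hy : y ≠ 0) {n : ℕ}
    (h : Valued.v x = Valued.v y * WithZero.exp (n : ℤ)) :
    cdist340 (diag129 x y hx hy) = n := by
  have hvy : Valued.v y ≠ 0 := by rwa [ne_eq, map_eq_zero]
  have hyx : Valued.v y ≤ Valued.v x := by
    rw [h]
    calc Valued.v y = Valued.v y * 1 := (mul_one _).symm
      _ ≤ Valued.v y * WithZero.exp (n : ℤ) := by
        apply mul_le_mul' le_rfl
        rw [← WithZero.exp_zero, WithZero.exp_le_exp]
        exact Int.natCast_nonneg n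
  rw [cdist340_eq_iff, entryMax_diag129 hx hy hyx]
  have hdet : ((diag129 x y hx hy : GL (Fin 2) k) : Matrix (Fin 2) (Fin 2) k).det = x * y := by
    simp [diag129, Matrix.det_fin_two_of]
  rw [hdet, map_mul, h, sq]
  simp only [mul_comm, mul_left_comm]

/-- Cartan decomposition, with the value of the Cartan distance. -/
theorem exists_decomp340 (g : GL (Fin 2) k) :
    ∃ (u u' : GL (Fin 2) k) (x y : k) (hx : x ≠ 0) (hy : y ≠ 0),
      InU 0 u ∧ InU 0 u' ∧ g = u * diag129 x y hx hy * u' ∧
      Valued.v x = Valued.v y * WithZero.exp ((cdist340 g : ℕ) : ℤ) := by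
  obtain ⟨u, u', x, y, hx, hy, hu, hu', hxy, hg, -⟩ := exists_cartan_diag129 g
  refine ⟨u, u', x, y, hx, hy, hu, hu', hg, ?_⟩
  have hvx : Valued.v x ≠ 0 := by rwa [ne_eq, map_eq_zero]
  have hvy : Valued.v y ≠ 0 := by rwa [ne_eq, map_eq_zero]
  have h1 : cdist340 g = cdist340 (diag129 x y hx hy) := by
    rw [hg, cdist340_mul_right _ hu', cdist340_mul_left _ hu]
  have h2 := cdist340_spec (diag129 x y hx hy)
  rw [entryMax_diag129 hx hy hxy] at h2
  have hdet : ((diag129 x y hx hy : GL (Fin 2) k) : Matrix (Fin 2) (Fin 2) k).det = x * y := by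
    simp [diag129, Matrix.det_fin_two_of]
  rw [hdet, map_mul, sq, mul_assoc] at h2
  rw [h1]
  exact mul_left_cancel₀ hvx h2

omit [Valued k Γ₀] in
theorem diag129_inv340 {x y : k} (hx : x ≠ 0) (hy : y ≠ 0) :
    (diag129 x y hx hy)⁻¹ = diag129 x⁻¹ y⁻¹ (inv_ne_zero hx) (inv_ne_zero hy) := by
  rw [inv_eq_iff_mul_eq_one, diag129_mul]
  apply ext_mat129
  simp [diag129, Matrix.one_fin_two, hx, hy]

omit [Valued k Γ₀] in
theorem weyl_diag_weyl340 {x y : k} (hx : x ≠ 0) (hy : y ≠ 0) :
    (weyl129 : GL (Fin 2) k) * diag129 x y hx hy * weyl129 = diag129 y x hy hx := by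
  apply ext_mat129
  simp [weyl129, diag129]

theorem inU_zero_weyl340 : InU 0 (weyl129 : GL (Fin 2) k) :=
  (inU_zero_iff129 _).mpr (isMaxCpt129_weyl _)

theorem cdist340_diag_swap {x y : k} (hx : x ≠ 0) (hy : y ≠ 0) :
    cdist340 (diag129 y x hy hx) = cdist340 (diag129 x y hx hy) := by
  rw [← weyl_diag_weyl340 hx hy, cdist340_mul_right _ inU_zero_weyl340,
    cdist340_mul_left _ inU_zero_weyl340]

theorem cdist340_inv (g : GL (Fin 2) k) : cdist340 g⁻¹ = cdist340 g := by
  obtain ⟨u, u', x, y, hx, hy, hu, hu', hg, hv⟩ := exists_decomp340 g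
  have hvx : Valued.v x ≠ 0 := by rwa [ne_eq, map_eq_zero]
  have hvy : Valued.v y ≠ 0 := by rwa [ne_eq, map_eq_zero]
  have e : g⁻¹ = u'⁻¹ * (diag129 x y hx hy)⁻¹ * u⁻¹ := by rw [hg]; group
  rw [e, cdist340_mul_right _ (inU_zero_inv129 hu), cdist340_mul_left _ (inU_zero_inv129 hu'),
    diag129_inv340, ← cdist340_diag_swap]
  apply cdist340_diag
  rw [map_inv₀, map_inv₀, hv, mul_inv, mul_assoc, inv_mul_cancel₀ WithZero.exp_ne_zero, mul_one]

theorem cdist340_one : cdist340 (1 : GL (Fin 2) k) = 0 := by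
  have h : (1 : GL (Fin 2) k) = diag129 1 1 one_ne_zero one_ne_zero := by
    apply ext_mat129
    simp [diag129, Matrix.one_fin_two]
  rw [h]
  apply cdist340_diag
  simp

theorem cdist340_of_inU {u : GL (Fin 2) k} (hu : InU 0 u) : cdist340 u = 0 := by
  have := cdist340_mul_right (1 : GL (Fin 2) k) hu
  rwa [one_mul, cdist340_one] at this

/-- `cdist340 g = 0` iff `g ∈ k^× · GL₂(𝒪)`. -/
theorem cdist340_eq_zero_iff (g : GL (Fin 2) k) :
    cdist340 g = 0 ↔ ∃ (z : k) (hz : z ≠ 0) (u : GL (Fin 2) k), InU 0 u ∧ g = scal340 z hz * u := by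
  constructor
  · intro h0
    obtain ⟨u, u', x, y, hx, hy, hu, hu', hg, hv⟩ := exists_decomp340 g
    rw [h0] at hv
    simp only [CharP.cast_eq_zero, WithZero.exp_zero, mul_one] at hv
    have hvx : Valued.v x ≠ 0 := by rwa [ne_eq, map_eq_zero]
    have hux : Valued.v (y / x) = 1 := by rw [map_div₀, hv, div_self]; rwa [← hv]
    have hd := isMaxCpt129_diag_unit (k := k) one_ne_zero (div_ne_zero hy hx) (by simp) hux
    have hdd : diag129 x y hx hy
        = scal340 x hx * diag129 1 (y / x) one_ne_zero (div_ne_zero hy hx) := by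
      unfold scal340
      rw [diag129_mul]
      exact diag129_congr _ _ _ _ (by ring) (by field_simp)
    refine ⟨x, hx, u * diag129 1 (y / x) one_ne_zero (div_ne_zero hy hx) * u',
      inU_zero_mul129 (inU_zero_mul129 hu ((inU_zero_iff129 _).mpr hd)) hu', ?_⟩
    rw [hg, hdd]
    simp only [← mul_assoc]
    rw [scal340_comm x hx u]
  · rintro ⟨z, hz, u, hu, rfl⟩
    rw [cdist340_scal_mul, cdist340_of_inU hu]

theorem cdist340_mul_of_zero_left {x : GL (Fin 2) k} (hx : cdist340 x = 0) (y : GL (Fin 2) k) :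
    cdist340 (x * y) = cdist340 y := by
  obtain ⟨z, hz, u, hu, rfl⟩ := (cdist340_eq_zero_iff x).mp hx
  rw [mul_assoc, cdist340_scal_mul, cdist340_mul_left _ hu]

theorem cdist340_mul_of_zero_right {x : GL (Fin 2) k} (hx : cdist340 x = 0) (y : GL (Fin 2) k) :
    cdist340 (y * x) = cdist340 y := by
  obtain ⟨z, hz, u, hu, rfl⟩ := (cdist340_eq_zero_iff x).mp hx
  rw [← mul_assoc, ← scal340_comm, mul_assoc, cdist340_scal_mul, cdist340_mul_right _ hu]

/-! ### Ring automorphisms preserving the valuation -/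

theorem coe_glAut340 (s : k ≃+* k) (g : GL (Fin 2) k) (i j : Fin 2) :
    ((glAut s g : GL (Fin 2) k) : Matrix (Fin 2) (Fin 2) k) i j
      = s ((g : Matrix (Fin 2) (Fin 2) k) i j) := rfl

theorem cartan_glAut340 (s : k ≃+* k) (hs : ∀ y : k, Valued.v (s y) = Valued.v y)
    (g : GL (Fin 2) k) : cartan (glAut s g) = cartan g := by
  have h1 : entryMax (glAut s g) = entryMax g := by
    unfold entryMax
    congr 1
    funext p
    rw [coe_glAut340, hs]
  have h2 : ((glAut s g : GL (Fin 2) k) : Matrix (Fin 2) (Fin 2) k).det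
      = s (g : Matrix (Fin 2) (Fin 2) k).det := by
    rw [Matrix.det_fin_two, Matrix.det_fin_two]
    simp only [coe_glAut340, map_sub, map_mul]
  unfold cartan
  rw [h1, h2, hs]

theorem cdist340_glAut (s : k ≃+* k) (hs : ∀ y : k, Valued.v (s y) = Valued.v y)
    (g : GL (Fin 2) k) : cdist340 (glAut s g) = cdist340 g := by
  unfold cdist340
  rw [cartan_glAut340 s hs]

end Fermat.Agent.LT.T6.H340

end
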