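import Fermat.Agent.LT.T6.H340.BTDist

/-!
# Row LT, tower T6, helper340: the `q + 1` neighbours in the tree of `GL₂(k)` (OFF-MAIN)

`ϖ` is a uniformiser (`v ϖ = exp (-1)`).  The neighbours of the class of `g` are the classes of
`g * nbF340 ϖ c` (`c` in a system of representatives of the residue field) and `g * nbI340 ϖ`.

* `cdist340_nbF`, `cdist340_nbI` : these elements have Cartan distance `1`;
* `cdist340_diag_mul_nbF_unit`, `cdist340_diag_mul_nbF_small`, `cdist340_diag_mul_nbF_zero`,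
  `cdist340_diag_mul_nbI` : the distance of `diag(a, b) * N` from the origin;
* `cdist340_nbF_inv_mul_nbF`, `cdist340_nbI_inv_mul_nbF`, `cdist340_nbF_inv_mul_nbI` :
  distinct members of the family are at distance `2`;
* `exists_nb340` : every element of Cartan distance `1` lies in `N · k^× · GL₂(𝒪)` for a member
  `N` of the family.
-/

set_option autoImplicit false
set_option linter.unusedSectionVars false

open Matrix

noncomputable section

namespace Fermat.Agent.LT.T6.H340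

open Fermat.Agent.LT.T6 Fermat.Agent.LT.H129

variable {k : Type} [Field k] [Valued k Γ₀]

theorem lt_one_iff340 (x : Γ₀) : x < 1 ↔ x ≤ WithZero.exp (-1 : ℤ) := by
  have h := WithZero.lt_mul_exp_iff_le (x := x) (y := WithZero.exp (-1 : ℤ)) WithZero.exp_ne_zero
  rw [← WithZero.exp_add] at h
  simpa using h

theorem exp_nat_ge_one340 (n : ℕ) : (1 : Γ₀) ≤ WithZero.exp (n : ℤ) := by
  rw [← WithZero.exp_zero, WithZero.exp_le_exp]
  exact Int.natCast_nonneg n

theorem exp_neg_one_le_one340 : (WithZero.exp (-1 : ℤ) : Γ₀) ≤ 1 := by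
  rw [← WithZero.exp_zero, WithZero.exp_le_exp]
  norm_num

theorem unif_ne_zero340 {ϖ : k} (hϖ : Valued.v ϖ = WithZero.exp (-1 : ℤ)) : ϖ ≠ 0 := by
  intro h
  rw [h, map_zero] at hϖ
  exact WithZero.exp_ne_zero hϖ.symm

/-- The finite neighbours `!![ϖ, c; 0, 1]`. -/
def nbF340 (ϖ : k) (h0 : ϖ ≠ 0) (c : k) : GL (Fin 2) k :=
  mkGL129 ϖ c 0 1 (by simpa using h0)

/-- The neighbour at infinity `!![1, 0; 0, ϖ]`. -/
def nbI340 (ϖ : k) (h0 : ϖ ≠ 0) : GL (Fin 2) k :=
  mkGL129 1 0 0 ϖ (by simpa using h0)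

section

variable {ϖ : k} (hϖ : Valued.v ϖ = WithZero.exp (-1 : ℤ))

include hϖ

theorem cdist340_nbF {c : k} (hc : Valued.v c ≤ 1) :
    cdist340 (nbF340 ϖ (unif_ne_zero340 hϖ) c) = 1 := by
  unfold nbF340
  apply cdist340_mkGL (M := 1)
  · rw [hϖ]; exact exp_neg_one_le_one340
  · exact hc
  · simp
  · simp
  · right; right; right; simp
  · simp only [mul_one, mul_zero, sub_zero, hϖ, one_pow, Nat.cast_one]
    rw [← WithZero.exp_add]
    simp

theorem cdist340_nbI : cdist340 (nbI340 ϖ (unif_ne_zero340 hϖ)) = 1 := by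
  unfold nbI340
  apply cdist340_mkGL (M := 1)
  · simp
  · simp
  · simp
  · rw [hϖ]; exact exp_neg_one_le_one340
  · left; simp
  · simp only [one_mul, mul_zero, sub_zero, hϖ, one_pow, Nat.cast_one]
    rw [← WithZero.exp_add]
    simp

/-! ### Distance from the origin of `diag(a, b) * N` -/

theorem diag_mul_nbF340 {a b : k} (ha : a ≠ 0) (hb : b ≠ 0) (c : k) :
    diag129 a b ha hb * nbF340 ϖ (unif_ne_zero340 hϖ) c
      = mkGL129 (a * ϖ) (a * c) 0 b (by
          simpa using mul_ne_zero (mul_ne_zero ha (unif_ne_zero340 hϖ)) hb) := by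
  apply ext_mat129
  simp [diag129, nbF340]

theorem diag_mul_nbI340 {a b : k} (ha : a ≠ 0) (hb : b ≠ 0) :
    diag129 a b ha hb * nbI340 ϖ (unif_ne_zero340 hϖ)
      = mkGL129 a 0 0 (b * ϖ) (by
          simpa using mul_ne_zero ha (mul_ne_zero hb (unif_ne_zero340 hϖ))) := by
  apply ext_mat129
  simp [diag129, nbI340]

theorem cdist340_diag_mul_nbF_unit {a b : k} (ha : a ≠ 0) (hb : b ≠ 0) {n : ℕ}
    (hv : Valued.v a = Valued.v b * WithZero.exp (n : ℤ)) {c : k} (hc : Valued.v c = 1) :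
    cdist340 (diag129 a b ha hb * nbF340 ϖ (unif_ne_zero340 hϖ) c) = n + 1 := by
  rw [diag_mul_nbF340 hϖ]
  have hba : Valued.v b ≤ Valued.v a := by
    rw [hv]
    calc Valued.v b = Valued.v b * 1 := (mul_one _).symm
      _ ≤ _ := mul_le_mul' le_rfl (exp_nat_ge_one340 n)
  apply cdist340_mkGL (M := Valued.v a)
  · rw [map_mul, hϖ]
    calc Valued.v a * WithZero.exp (-1 : ℤ) ≤ Valued.v a * 1 :=
          mul_le_mul' le_rfl exp_neg_one_le_one340
      _ = Valued.v a := mul_one _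
  · rw [map_mul, hc, mul_one]
  · simp
  · exact hba
  · right; left; rw [map_mul, hc, mul_one]
  · simp only [mul_zero, sub_zero, map_mul, hϖ, Nat.cast_add, Nat.cast_one, WithZero.exp_add, sq]
    nth_rewrite 2 [hv]
    have e : (WithZero.exp (-1 : ℤ) : Γ₀) * WithZero.exp (1 : ℤ) = 1 := by
      rw [← WithZero.exp_add]; simp
    calc Valued.v a * (Valued.v b * WithZero.exp (n : ℤ))
        = Valued.v a * Valued.v b * WithZero.exp (n : ℤ)
            * (WithZero.exp (-1 : ℤ) * WithZero.exp (1 : ℤ)) := by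
          rw [e, mul_one, mul_assoc]
      _ = _ := by simp only [mul_assoc, mul_comm, mul_left_comm]

theorem cdist340_diag_mul_nbI {a b : k} (ha : a ≠ 0) (hb : b ≠ 0) {n : ℕ}
    (hv : Valued.v a = Valued.v b * WithZero.exp (n : ℤ)) :
    cdist340 (diag129 a b ha hb * nbI340 ϖ (unif_ne_zero340 hϖ)) = n + 1 := by
  rw [diag_mul_nbI340 hϖ]
  have hba : Valued.v b ≤ Valued.v a := by
    rw [hv]
    calc Valued.v b = Valued.v b * 1 := (mul_one _).symm
      _ ≤ _ := mul_le_mul' le_rfl (exp_nat_ge_one340 n)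
  apply cdist340_mkGL (M := Valued.v a)
  · exact le_rfl
  · simp
  · simp
  · rw [map_mul, hϖ]
    calc Valued.v b * WithZero.exp (-1 : ℤ) ≤ Valued.v b * 1 :=
          mul_le_mul' le_rfl exp_neg_one_le_one340
      _ = Valued.v b := mul_one _
      _ ≤ Valued.v a := hba
  · left; rfl
  · simp only [mul_zero, sub_zero, map_mul, hϖ, Nat.cast_add, Nat.cast_one, WithZero.exp_add, sq]
    nth_rewrite 2 [hv]
    have e : (WithZero.exp (-1 : ℤ) : Γ₀) * WithZero.exp (1 : ℤ) = 1 := by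
      rw [← WithZero.exp_add]; simp
    calc Valued.v a * (Valued.v b * WithZero.exp (n : ℤ))
        = Valued.v a * Valued.v b * WithZero.exp (n : ℤ)
            * (WithZero.exp (-1 : ℤ) * WithZero.exp (1 : ℤ)) := by
          rw [e, mul_one, mul_assoc]
      _ = _ := by simp only [mul_assoc, mul_comm, mul_left_comm]

theorem cdist340_diag_mul_nbF_zero {a b : k} (ha : a ≠ 0) (hb : b ≠ 0)
    (hv : Valued.v a = Valued.v b) {c : k} (hc : Valued.v c ≤ 1) :
    cdist340 (diag129 a b ha hb * nbF340 ϖ (unif_ne_zero340 hϖ) c) = 1 := by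
  rw [diag_mul_nbF340 hϖ]
  apply cdist340_mkGL (M := Valued.v b)
  · rw [map_mul, hϖ, hv]
    calc Valued.v b * WithZero.exp (-1 : ℤ) ≤ Valued.v b * 1 :=
          mul_le_mul' le_rfl exp_neg_one_le_one340
      _ = Valued.v b := mul_one _
  · rw [map_mul, hv]
    calc Valued.v b * Valued.v c ≤ Valued.v b * 1 := mul_le_mul' le_rfl hc
      _ = Valued.v b := mul_one _
  · simp
  · exact le_rfl
  · right; right; right; rfl
  · simp only [mul_zero, sub_zero, map_mul, hϖ, Nat.cast_one, sq, hv]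
    have e : (WithZero.exp (-1 : ℤ) : Γ₀) * WithZero.exp (1 : ℤ) = 1 := by
      rw [← WithZero.exp_add]; simp
    calc Valued.v b * Valued.v b
        = Valued.v b * Valued.v b * (WithZero.exp (-1 : ℤ) * WithZero.exp (1 : ℤ)) := by
          rw [e, mul_one]
      _ = _ := by simp only [mul_assoc, mul_comm, mul_left_comm]

theorem cdist340_diag_mul_nbF_small {a b : k} (ha : a ≠ 0) (hb : b ≠ 0) {m : ℕ}
    (hv : Valued.v a = Valued.v b * WithZero.exp ((m + 1 : ℕ) : ℤ)) {c : k}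
    (hc : Valued.v c < 1) :
    cdist340 (diag129 a b ha hb * nbF340 ϖ (unif_ne_zero340 hϖ) c) = m := by
  rw [diag_mul_nbF340 hϖ]
  have hc' : Valued.v c ≤ WithZero.exp (-1 : ℤ) := (lt_one_iff340 _).mp hc
  have e : (WithZero.exp (-1 : ℤ) : Γ₀) * WithZero.exp (1 : ℤ) = 1 := by
    rw [← WithZero.exp_add]; simp
  have hb' : Valued.v b = Valued.v a * WithZero.exp (-1 : ℤ) * WithZero.exp (-(m : ℤ)) := by
    rw [hv]
    have : (WithZero.exp ((m + 1 : ℕ) : ℤ) : Γ₀) * WithZero.exp (-1 : ℤ)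
        * WithZero.exp (-(m : ℤ)) = 1 := by
      rw [← WithZero.exp_add, ← WithZero.exp_add]
      simp
    rw [mul_assoc, mul_assoc, ← mul_assoc (WithZero.exp _), this, mul_one]
  apply cdist340_mkGL (M := Valued.v a * WithZero.exp (-1 : ℤ))
  · rw [map_mul, hϖ]
  · rw [map_mul]
    exact mul_le_mul' le_rfl hc'
  · simp
  · rw [hb']
    calc Valued.v a * WithZero.exp (-1 : ℤ) * WithZero.exp (-(m : ℤ))
        ≤ Valued.v a * WithZero.exp (-1 : ℤ) * 1 := by
          apply mul_le_mul' le_rfl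
          rw [← WithZero.exp_zero, WithZero.exp_le_exp]
          omega
      _ = _ := mul_one _
  · left; rw [map_mul, hϖ]
  · simp only [mul_zero, sub_zero, map_mul, hϖ, sq]
    rw [hb']
    have e2 : (WithZero.exp (-(m : ℤ)) : Γ₀) * WithZero.exp (m : ℤ) = 1 := by
      rw [← WithZero.exp_add]; simp
    calc Valued.v a * WithZero.exp (-1 : ℤ) * (Valued.v a * WithZero.exp (-1 : ℤ))
        = Valued.v a * WithZero.exp (-1 : ℤ) * (Valued.v a * WithZero.exp (-1 : ℤ))
            * (WithZero.exp (-(m : ℤ)) * WithZero.exp (m : ℤ)) := by rw [e2, mul_one]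
      _ = _ := by simp only [mul_assoc, mul_comm, mul_left_comm]

/-! ### Distinct members of the family are at distance `2` -/

theorem nbF340_eq_mul_upper (c c' : k) :
    nbF340 ϖ (unif_ne_zero340 hϖ) c'
      = nbF340 ϖ (unif_ne_zero340 hϖ) c * upperU129 ((c' - c) / ϖ) := by
  have h0 := unif_ne_zero340 hϖ
  apply ext_mat129
  simp only [nbF340, upperU129, Matrix.GeneralLinearGroup.coe_mul, coe_mkGL129]
  ext i j
  fin_cases i <;> fin_cases j <;> simp [Matrix.mul_apply, Fin.sum_univ_two]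
  field_simp
  ring

theorem cdist340_nbF_inv_mul_nbF {c c' : k} (hcc : Valued.v (c' - c) = 1) :
    cdist340 ((nbF340 ϖ (unif_ne_zero340 hϖ) c)⁻¹ * nbF340 ϖ (unif_ne_zero340 hϖ) c') = 2 := by
  rw [nbF340_eq_mul_upper hϖ c c', inv_mul_cancel_left]
  have hx : Valued.v ((c' - c) / ϖ) = WithZero.exp (1 : ℤ) := by
    rw [map_div₀, hcc, hϖ, one_div, ← WithZero.exp_neg]; simp
  unfold upperU129
  apply cdist340_mkGL (M := WithZero.exp (1 : ℤ))
  · simp only [map_one]
    rw [← WithZero.exp_zero, WithZero.exp_le_exp]; norm_num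
  · rw [hx]
  · simp
  · simp only [map_one]
    rw [← WithZero.exp_zero, WithZero.exp_le_exp]; norm_num
  · right; left; exact hx
  · simp only [mul_one, mul_zero, sub_zero, map_one, one_mul, sq, Nat.cast_ofNat]
    rw [← WithZero.exp_add]; norm_num

theorem nbF340_eq_nbI_mul (c : k) :
    nbF340 ϖ (unif_ne_zero340 hϖ) c
      = nbI340 ϖ (unif_ne_zero340 hϖ)
        * mkGL129 ϖ c 0 ϖ⁻¹ (by simp [unif_ne_zero340 hϖ]) := by
  have h0 := unif_ne_zero340 hϖ
  apply ext_mat129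
  simp only [nbF340, nbI340, Matrix.GeneralLinearGroup.coe_mul, coe_mkGL129]
  ext i j
  fin_cases i <;> fin_cases j <;> simp [Matrix.mul_apply, Fin.sum_univ_two, h0]

theorem cdist340_nbI_inv_mul_nbF {c : k} (hc : Valued.v c ≤ 1) :
    cdist340 ((nbI340 ϖ (unif_ne_zero340 hϖ))⁻¹ * nbF340 ϖ (unif_ne_zero340 hϖ) c) = 2 := by
  rw [nbF340_eq_nbI_mul hϖ c, inv_mul_cancel_left]
  have h1 : (1 : Γ₀) ≤ WithZero.exp (1 : ℤ) := by
    rw [← WithZero.exp_zero, WithZero.exp_le_exp]; norm_num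
  have hx : Valued.v (ϖ⁻¹) = WithZero.exp (1 : ℤ) := by
    rw [map_inv₀, hϖ, ← WithZero.exp_neg]; simp
  apply cdist340_mkGL (M := WithZero.exp (1 : ℤ))
  · rw [hϖ]; exact le_trans exp_neg_one_le_one340 h1
  · exact le_trans hc h1
  · simp
  · rw [hx]
  · right; right; right; exact hx
  · have h0 := unif_ne_zero340 hϖ
    simp only [mul_zero, sub_zero, mul_inv_cancel₀ h0, map_one, one_mul, sq, Nat.cast_ofNat]
    rw [← WithZero.exp_add]; norm_num

theorem cdist340_nbF_inv_mul_nbI {c : k} (hc : Valued.v c ≤ 1) :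
    cdist340 ((nbF340 ϖ (unif_ne_zero340 hϖ) c)⁻¹ * nbI340 ϖ (unif_ne_zero340 hϖ)) = 2 := by
  have e : (nbF340 ϖ (unif_ne_zero340 hϖ) c)⁻¹ * nbI340 ϖ (unif_ne_zero340 hϖ)
      = ((nbI340 ϖ (unif_ne_zero340 hϖ))⁻¹ * nbF340 ϖ (unif_ne_zero340 hϖ) c)⁻¹ := by group
  rw [e, cdist340_inv, cdist340_nbI_inv_mul_nbF hϖ hc]


/-! ### Completeness of the family -/

omit hϖ in
/-- An integral matrix with unit determinant lies in `U(0) = GL₂(𝒪)`. -/
theorem inU_zero_of_int340 {g : GL (Fin 2) k}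
    (hint : ∀ i j, Valued.v ((g : Matrix (Fin 2) (Fin 2) k) i j) ≤ 1)
    (hdet : Valued.v (g : Matrix (Fin 2) (Fin 2) k).det = 1) : InU 0 g := by
  rw [inU_zero_iff129]
  refine ⟨hint, isInt129_inv_of_det hint ?_⟩
  rw [mem_vO129, map_inv₀, hdet, inv_one]

theorem nbF340_inv (c : k) :
    (nbF340 ϖ (unif_ne_zero340 hϖ) c)⁻¹
      = mkGL129 ϖ⁻¹ (-(c / ϖ)) 0 1 (by simp [unif_ne_zero340 hϖ]) := by
  have h0 := unif_ne_zero340 hϖ
  rw [inv_eq_iff_mul_eq_one]
  apply ext_mat129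
  simp only [nbF340, Matrix.GeneralLinearGroup.coe_mul, coe_mkGL129]
  ext i j
  fin_cases i <;> fin_cases j <;> simp [Matrix.mul_apply, Fin.sum_univ_two, h0]
  field_simp
  ring

theorem nbI340_inv :
    (nbI340 ϖ (unif_ne_zero340 hϖ))⁻¹
      = mkGL129 1 0 0 ϖ⁻¹ (by simp [unif_ne_zero340 hϖ]) := by
  have h0 := unif_ne_zero340 hϖ
  rw [inv_eq_iff_mul_eq_one]
  apply ext_mat129
  simp only [nbI340, Matrix.GeneralLinearGroup.coe_mul, coe_mkGL129]
  ext i j
  fin_cases i <;> fin_cases j <;> simp [Matrix.mul_apply, Fin.sum_univ_two, h0]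

theorem vdet_nbF340 (c : k) :
    Valued.v ((nbF340 ϖ (unif_ne_zero340 hϖ) c : GL (Fin 2) k) :
      Matrix (Fin 2) (Fin 2) k).det = WithZero.exp (-1 : ℤ) := by
  unfold nbF340
  rw [det_mkGL340]
  simp [hϖ]

theorem vdet_nbI340 :
    Valued.v ((nbI340 ϖ (unif_ne_zero340 hϖ) : GL (Fin 2) k) :
      Matrix (Fin 2) (Fin 2) k).det = WithZero.exp (-1 : ℤ) := by
  unfold nbI340
  rw [det_mkGL340]
  simp [hϖ]

omit hϖ in
theorem vdet_inv_mul340 (N X : GL (Fin 2) k) :
    Valued.v ((N⁻¹ * X : GL (Fin 2) k) : Matrix (Fin 2) (Fin 2) k).det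
      = (Valued.v (N : Matrix (Fin 2) (Fin 2) k).det)⁻¹
        * Valued.v (X : Matrix (Fin 2) (Fin 2) k).det := by
  rw [Matrix.GeneralLinearGroup.coe_mul, Matrix.det_mul, map_mul, Matrix.coe_units_inv,
    Matrix.det_nonsing_inv, Ring.inverse_eq_inv', map_inv₀]

/-- The core of completeness: for `u ∈ GL₂(𝒪)` and `v β = exp (-1)` the element
`u * diag(1, β)` lies in `N · GL₂(𝒪)` for a member `N` of the family. -/
theorem exists_nb_core340 (T : Finset k)
    (hT : ∀ z : k, Valued.v z ≤ 1 → ∃ x ∈ T, Valued.v (z - x) < 1)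
    {u : GL (Fin 2) k} (hu : InU 0 u) {β : k} (hβ0 : β ≠ 0)
    (hβ : Valued.v β = WithZero.exp (-1 : ℤ)) :
    (∃ c ∈ T, InU 0 ((nbF340 ϖ (unif_ne_zero340 hϖ) c)⁻¹
        * (u * diag129 1 β one_ne_zero hβ0)))
      ∨ InU 0 ((nbI340 ϖ (unif_ne_zero340 hϖ))⁻¹ * (u * diag129 1 β one_ne_zero hβ0)) := by
  have h0 := unif_ne_zero340 hϖ
  have hum := (inU_zero_iff129 u).mp hu
  have hint : ∀ i j, Valued.v ((u : Matrix (Fin 2) (Fin 2) k) i j) ≤ 1 := hum.1
  have hdu : Valued.v (u : Matrix (Fin 2) (Fin 2) k).det = 1 := valued_det_of_isMaxCpt129 hum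
  have e1 : (WithZero.exp (-1 : ℤ) : Γ₀)⁻¹ * WithZero.exp (-1 : ℤ) = 1 :=
    inv_mul_cancel₀ WithZero.exp_ne_zero
  have hX0 : ∀ i, ((u * diag129 1 β one_ne_zero hβ0 : GL (Fin 2) k) :
      Matrix (Fin 2) (Fin 2) k) i 0 = (u : Matrix (Fin 2) (Fin 2) k) i 0 := by
    intro i
    simp [diag129, Matrix.mul_apply, Fin.sum_univ_two]
  have hX1 : ∀ i, ((u * diag129 1 β one_ne_zero hβ0 : GL (Fin 2) k) :
      Matrix (Fin 2) (Fin 2) k) i 1 = (u : Matrix (Fin 2) (Fin 2) k) i 1 * β := by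
    intro i
    simp [diag129, Matrix.mul_apply, Fin.sum_univ_two]
  have hdX : Valued.v ((u * diag129 1 β one_ne_zero hβ0 : GL (Fin 2) k) :
      Matrix (Fin 2) (Fin 2) k).det = WithZero.exp (-1 : ℤ) := by
    rw [Matrix.GeneralLinearGroup.coe_mul, Matrix.det_mul, map_mul, hdu, one_mul]
    have : ((diag129 1 β one_ne_zero hβ0 : GL (Fin 2) k) : Matrix (Fin 2) (Fin 2) k).det
        = β := by
      simp [diag129, Matrix.det_fin_two_of]
    rw [this, hβ]
  set X : GL (Fin 2) k := u * diag129 1 β one_ne_zero hβ0 with hX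
  have hβ1 : Valued.v β ≤ 1 := by rw [hβ]; exact exp_neg_one_le_one340
  have hvϖinv : Valued.v (ϖ⁻¹) = WithZero.exp (1 : ℤ) := by
    rw [map_inv₀, hϖ, ← WithZero.exp_neg]; simp
  have e2 : (WithZero.exp (1 : ℤ) : Γ₀) * WithZero.exp (-1 : ℤ) = 1 := by
    rw [← WithZero.exp_add]; simp
  rcases eq_or_lt_of_le (hint 1 0) with hr | hr
  · -- `r` is a unit
    have hr0 : (u : Matrix (Fin 2) (Fin 2) k) 1 0 ≠ 0 := by
      intro h
      rw [h, map_zero] at hr
      exact zero_ne_one hr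
    have hpr : Valued.v ((u : Matrix (Fin 2) (Fin 2) k) 0 0
        / (u : Matrix (Fin 2) (Fin 2) k) 1 0) ≤ 1 := by
      rw [map_div₀, hr, div_one]
      exact hint 0 0
    obtain ⟨c, hcT, hc⟩ := hT _ hpr
    have hc1 : Valued.v c ≤ 1 := by
      have : c = (u : Matrix (Fin 2) (Fin 2) k) 0 0 / (u : Matrix (Fin 2) (Fin 2) k) 1 0
          - ((u : Matrix (Fin 2) (Fin 2) k) 0 0 / (u : Matrix (Fin 2) (Fin 2) k) 1 0 - c) := by
        ring
      rw [this]
      exact le_trans (Valuation.map_sub _ _ _) (max_le hpr hc.le)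
    have hpc : Valued.v ((u : Matrix (Fin 2) (Fin 2) k) 0 0
        - c * (u : Matrix (Fin 2) (Fin 2) k) 1 0) ≤ WithZero.exp (-1 : ℤ) := by
      have : (u : Matrix (Fin 2) (Fin 2) k) 0 0 - c * (u : Matrix (Fin 2) (Fin 2) k) 1 0
          = (u : Matrix (Fin 2) (Fin 2) k) 1 0
            * ((u : Matrix (Fin 2) (Fin 2) k) 0 0 / (u : Matrix (Fin 2) (Fin 2) k) 1 0 - c) := by
        field_simp
      rw [this, map_mul, hr, one_mul]
      exact (lt_one_iff340 _).mp hc
    left
    refine ⟨c, hcT, ?_⟩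
    apply inU_zero_of_int340
    · intro i j
      rw [nbF340_inv hϖ, Matrix.GeneralLinearGroup.coe_mul, coe_mkGL129, Matrix.mul_apply,
        Fin.sum_univ_two]
      fin_cases i <;> fin_cases j
      · simp only [Fin.zero_eta, Fin.isValue, Matrix.of_apply, Matrix.cons_val', Matrix.cons_val_zero,
          Matrix.cons_val_fin_one, Matrix.cons_val_one, hX0]
        have : ϖ⁻¹ * (u : Matrix (Fin 2) (Fin 2) k) 0 0
            + -(c / ϖ) * (u : Matrix (Fin 2) (Fin 2) k) 1 0
            = ϖ⁻¹ * ((u : Matrix (Fin 2) (Fin 2) k) 0 0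
              - c * (u : Matrix (Fin 2) (Fin 2) k) 1 0) := by
          field_simp
          ring
        rw [this, map_mul, hvϖinv]
        calc WithZero.exp (1 : ℤ) * _ ≤ WithZero.exp (1 : ℤ) * WithZero.exp (-1 : ℤ) :=
              mul_le_mul' le_rfl hpc
          _ = 1 := e2
      · simp only [Fin.zero_eta, Fin.isValue, Fin.mk_one, Matrix.of_apply, Matrix.cons_val',
          Matrix.cons_val_zero, Matrix.cons_val_fin_one, Matrix.cons_val_one, hX1]
        have : ϖ⁻¹ * ((u : Matrix (Fin 2) (Fin 2) k) 0 1 * β)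
            + -(c / ϖ) * ((u : Matrix (Fin 2) (Fin 2) k) 1 1 * β)
            = (ϖ⁻¹ * β) * ((u : Matrix (Fin 2) (Fin 2) k) 0 1
              - c * (u : Matrix (Fin 2) (Fin 2) k) 1 1) := by
          field_simp
          ring
        rw [this, map_mul, map_mul, hvϖinv, hβ, e2, one_mul]
        refine le_trans (Valuation.map_sub _ _ _) (max_le (hint 0 1) ?_)
        rw [map_mul]
        calc Valued.v c * Valued.v ((u : Matrix (Fin 2) (Fin 2) k) 1 1) ≤ 1 * 1 :=
              mul_le_mul' hc1 (hint 1 1)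
          _ = 1 := one_mul _
      · simp only [Fin.mk_one, Fin.isValue, Fin.zero_eta, Matrix.of_apply, Matrix.cons_val',
          Matrix.cons_val_zero, Matrix.cons_val_fin_one, Matrix.cons_val_one, hX0, zero_mul,
          one_mul, zero_add]
        exact hint 1 0
      · simp only [Fin.mk_one, Fin.isValue, Matrix.of_apply, Matrix.cons_val',
          Matrix.cons_val_zero, Matrix.cons_val_fin_one, Matrix.cons_val_one, hX1, zero_mul,
          one_mul, zero_add]
        rw [map_mul]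
        calc _ ≤ (1 : Γ₀) * 1 := mul_le_mul' (hint 1 1) hβ1
          _ = 1 := one_mul _
    · rw [vdet_inv_mul340, vdet_nbF340 hϖ, hdX, e1]
  · -- `r` is not a unit
    have hr' : Valued.v ((u : Matrix (Fin 2) (Fin 2) k) 1 0) ≤ WithZero.exp (-1 : ℤ) :=
      (lt_one_iff340 _).mp hr
    right
    apply inU_zero_of_int340
    · intro i j
      rw [nbI340_inv hϖ, Matrix.GeneralLinearGroup.coe_mul, coe_mkGL129, Matrix.mul_apply,
        Fin.sum_univ_two]
      fin_cases i <;> fin_cases j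
      · simp only [Fin.zero_eta, Fin.isValue, Matrix.of_apply, Matrix.cons_val', Matrix.cons_val_zero,
          Matrix.cons_val_fin_one, Matrix.cons_val_one, hX0, one_mul, zero_mul, add_zero]
        exact hint 0 0
      · simp only [Fin.zero_eta, Fin.isValue, Fin.mk_one, Matrix.of_apply, Matrix.cons_val',
          Matrix.cons_val_zero, Matrix.cons_val_fin_one, Matrix.cons_val_one, hX1, one_mul,
          zero_mul, add_zero]
        rw [map_mul]
        calc _ ≤ (1 : Γ₀) * 1 := mul_le_mul' (hint 0 1) hβ1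
          _ = 1 := one_mul _
      · simp only [Fin.mk_one, Fin.isValue, Fin.zero_eta, Matrix.of_apply, Matrix.cons_val',
          Matrix.cons_val_zero, Matrix.cons_val_fin_one, Matrix.cons_val_one, hX0, zero_mul,
          zero_add]
        rw [map_mul, hvϖinv]
        calc WithZero.exp (1 : ℤ) * _ ≤ WithZero.exp (1 : ℤ) * WithZero.exp (-1 : ℤ) :=
              mul_le_mul' le_rfl hr'
          _ = 1 := e2
      · simp only [Fin.mk_one, Fin.isValue, Matrix.of_apply, Matrix.cons_val',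
          Matrix.cons_val_zero, Matrix.cons_val_fin_one, Matrix.cons_val_one, hX1, zero_mul,
          zero_add]
        rw [map_mul, map_mul, hvϖinv, hβ, mul_comm (Valued.v _), ← mul_assoc, e2, one_mul]
        exact hint 1 1
    · rw [vdet_inv_mul340, vdet_nbI340 hϖ, hdX, e1]

/-- **Completeness.**  Every element of Cartan distance `1` lies in `N · k^× · GL₂(𝒪)` for a
member `N` of the family. -/
theorem exists_nb340 (T : Finset k)
    (hT : ∀ z : k, Valued.v z ≤ 1 → ∃ x ∈ T, Valued.v (z - x) < 1)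
    {y : GL (Fin 2) k} (hy : cdist340 y = 1) :
    (∃ c ∈ T, cdist340 ((nbF340 ϖ (unif_ne_zero340 hϖ) c)⁻¹ * y) = 0)
      ∨ cdist340 ((nbI340 ϖ (unif_ne_zero340 hϖ))⁻¹ * y) = 0 := by
  obtain ⟨u, u', a, b, ha, hb, hu, hu', hg, hv⟩ := exists_decomp340 y
  rw [hy] at hv
  have hva : Valued.v a ≠ 0 := by rwa [ne_eq, map_eq_zero]
  have hβ0 : b / a ≠ 0 := div_ne_zero hb ha
  have hβ : Valued.v (b / a) = WithZero.exp (-1 : ℤ) := by
    have hvb : Valued.v b ≠ 0 := by rwa [ne_eq, map_eq_zero]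
    rw [map_div₀, hv, Nat.cast_one, div_eq_mul_inv, mul_inv, ← mul_assoc, mul_inv_cancel₀ hvb,
      one_mul, ← WithZero.exp_neg]
  have hdd : diag129 a b ha hb = scal340 a ha * diag129 1 (b / a) one_ne_zero hβ0 := by
    unfold scal340
    rw [diag129_mul]
    exact diag129_congr _ _ _ _ (by ring) (by field_simp)
  have key : ∀ N : GL (Fin 2) k,
      InU 0 (N⁻¹ * (u * diag129 1 (b / a) one_ne_zero hβ0)) → cdist340 (N⁻¹ * y) = 0 := by
    intro N hN
    have e : N⁻¹ * y
        = scal340 a ha * (N⁻¹ * (u * diag129 1 (b / a) one_ne_zero hβ0)) * u' := by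
      rw [hg, hdd]
      simp only [← mul_assoc]
      rw [scal340_comm a ha N⁻¹, mul_assoc N⁻¹ (scal340 a ha) u, scal340_comm a ha u]
      simp only [← mul_assoc]
    rw [e, cdist340_mul_right _ hu', cdist340_scal_mul, cdist340_of_inU hN]
  rcases exists_nb_core340 hϖ T hT hu hβ0 hβ with ⟨c, hcT, hc⟩ | h
  · exact Or.inl ⟨c, hcT, key _ hc⟩
  · exact Or.inr (key _ h)

end

end Fermat.Agent.LT.T6.H340

end
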